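/-
S31 (row 30), helper7's route, slice S31-BURN (helper9).

For an adic Galois representation `ρ : GaloisRepAdic T` over a local ring `T` whose residual
representation is absolutely irreducible:
* `H9S31.span_eq_top`: the matrices `ρ(g)` span `M₂(T)` (Burnside + Nakayama);
* `H9S31.rho_eq_one_of_trace`: if `tr ρ(g τ) = tr ρ(g)` for all `g`, then `ρ(τ) = 1`.
-/
import Fermat.Agent.S53.Burnside
import Fermat.Prelude.Def_GaloisRep_Adic

set_option autoImplicit false
set_option linter.unusedSectionVars false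

noncomputable section

namespace H9S31

open Matrix
open scoped TensorProduct

variable {T : Type} [CommRing T] [IsLocalRing T]

/-- a basis of the underlying module of an adic representation -/
def adicBasis (ρ : GaloisRepAdic T) : Module.Basis (Fin 2) T ρ.V :=
  Module.finBasisOfFinrankEq T ρ.V ρ.finrank_eq

/-- the matrices of `ρ` in a basis -/
def mat (ρ : GaloisRepAdic T) (b : Module.Basis (Fin 2) T ρ.V) (σ : H24S53.Gal) :
    Matrix (Fin 2) (Fin 2) T :=
  LinearMap.toMatrix b b (ρ.ρ σ)

theorem mat_mul (ρ : GaloisRepAdic T) (b : Module.Basis (Fin 2) T ρ.V) (σ τ : H24S53.Gal) :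
    mat ρ b (σ * τ) = mat ρ b σ * mat ρ b τ := by
  unfold mat
  rw [map_mul]
  exact LinearMap.toMatrix_mul b _ _

theorem mat_one (ρ : GaloisRepAdic T) (b : Module.Basis (Fin 2) T ρ.V) :
    mat ρ b 1 = 1 := by
  unfold mat
  rw [map_one]
  exact LinearMap.toMatrix_one b

theorem trace_eq (ρ : GaloisRepAdic T) (b : Module.Basis (Fin 2) T ρ.V) (σ : H24S53.Gal) :
    LinearMap.trace T ρ.V (ρ.ρ σ) = (mat ρ b σ).trace :=
  LinearMap.trace_eq_matrix_trace T b _

/-- a matrix with entries in the maximal ideal lies in `𝔪 • ⊤` -/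
theorem mem_smul_top_of_entries (X : Matrix (Fin 2) (Fin 2) T)
    (hX : ∀ i j, X i j ∈ IsLocalRing.maximalIdeal T) :
    X ∈ IsLocalRing.maximalIdeal T • (⊤ : Submodule T (Matrix (Fin 2) (Fin 2) T)) := by
  rw [Matrix.matrix_eq_sum_single X]
  refine Submodule.sum_mem _ fun i _ => Submodule.sum_mem _ fun j _ => ?_
  have h1 : Matrix.single i j (X i j) = X i j • Matrix.single i j (1 : T) := by
    rw [Matrix.smul_single, smul_eq_mul, mul_one]
  rw [h1]
  exact Submodule.smul_mem_smul (hX i j) Submodule.mem_top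

/-- **Burnside over a local ring**: the matrices of a residually absolutely irreducible
representation span the full matrix algebra. -/
theorem span_eq_top (ρ : GaloisRepAdic T) (habs : ρ.residual.IsAbsolutelyIrreducible)
    (b : Module.Basis (Fin 2) T ρ.V) :
    Submodule.span T (Set.range (mat ρ b)) = ⊤ := by
  set k := IsLocalRing.ResidueField T with hk
  set W := Submodule.span T (Set.range (mat ρ b)) with hW
  -- the residual basis and Burnside over the residue field
  let b' : Module.Basis (Fin 2) k ρ.residual.V := Algebra.TensorProduct.basis k b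
  have hB := H24S53.h13_span_eq_top ρ.residual habs b'
  have hbar : ∀ σ : H24S53.Gal, LinearMap.toMatrix b' b' (ρ.residual.ρ σ)
      = (mat ρ b σ).map (algebraMap T k) := by
    intro σ
    exact LinearMap.toMatrix_baseChange k (ρ.ρ σ) b b
  -- lifting
  have hlift : ∀ Y : Matrix (Fin 2) (Fin 2) k, ∃ X ∈ W, X.map (algebraMap T k) = Y := by
    intro Y
    have hY : Y ∈ Submodule.span k
        (Set.range fun σ : H24S53.Gal => LinearMap.toMatrix b' b' (ρ.residual.ρ σ)) := by
      rw [hB]; exact Submodule.mem_top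
    induction hY using Submodule.span_induction with
    | mem Y hY =>
      obtain ⟨σ, rfl⟩ := hY
      exact ⟨mat ρ b σ, Submodule.subset_span ⟨σ, rfl⟩, (hbar σ).symm⟩
    | zero => exact ⟨0, W.zero_mem, by simp⟩
    | add Y₁ Y₂ _ _ h₁ h₂ =>
      obtain ⟨X₁, hX₁, rfl⟩ := h₁
      obtain ⟨X₂, hX₂, rfl⟩ := h₂
      exact ⟨X₁ + X₂, W.add_mem hX₁ hX₂, by simp [Matrix.map_add]⟩
    | smul c Y _ h =>
      obtain ⟨X, hX, rfl⟩ := h
      obtain ⟨c', rfl⟩ := IsLocalRing.residue_surjective c
      refine ⟨c' • X, W.smul_mem c' hX, ?_⟩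
      ext i j
      simp only [Matrix.map_apply, Matrix.smul_apply, smul_eq_mul, map_mul]
      rfl
  -- Nakayama
  rw [eq_top_iff]
  refine Submodule.le_of_le_smul_of_le_jacobson_bot (I := IsLocalRing.maximalIdeal T)
    (Module.Finite.fg_top) (IsLocalRing.maximalIdeal_le_jacobson ⊥) ?_
  intro X _
  obtain ⟨Y, hY, hYX⟩ := hlift (X.map (algebraMap T k))
  have h1 : X = Y + (X - Y) := by abel
  rw [h1]
  refine Submodule.add_mem_sup hY (mem_smul_top_of_entries _ fun i j => ?_)
  have h2 := congrFun (congrFun hYX i) j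
  simp only [Matrix.map_apply] at h2
  rw [Matrix.sub_apply, ← IsLocalRing.residue_eq_zero_iff, map_sub, sub_eq_zero]
  exact h2.symm

/-- the trace form detects zero -/
theorem eq_zero_of_trace_mul (C : Matrix (Fin 2) (Fin 2) T)
    (h : ∀ X : Matrix (Fin 2) (Fin 2) T, (X * C).trace = 0) : C = 0 := by
  ext i j
  have := h (Matrix.single j i (1 : T))
  rw [Matrix.trace_single_mul] at this
  simpa using this

/-- **S31-BURN**: if `tr ρ(g τ) = tr ρ(g)` for all `g` then `ρ(τ) = 1`. -/
theorem rho_eq_one_of_trace (ρ : GaloisRepAdic T) (habs : ρ.residual.IsAbsolutelyIrreducible)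
    (τ : AlgebraicClosure ℚ ≃ₐ[ℚ] AlgebraicClosure ℚ)
    (h : ∀ g : AlgebraicClosure ℚ ≃ₐ[ℚ] AlgebraicClosure ℚ,
      LinearMap.trace T ρ.V (ρ.ρ (g * τ)) = LinearMap.trace T ρ.V (ρ.ρ g)) :
    ρ.ρ τ = 1 := by
  set b := adicBasis ρ with hb
  have hspan := span_eq_top ρ habs b
  have hC : mat ρ b τ - 1 = 0 := by
    apply eq_zero_of_trace_mul
    intro X
    have hX : X ∈ Submodule.span T (Set.range (mat ρ b)) := by
      rw [hspan]; exact Submodule.mem_top
    induction hX using Submodule.span_induction with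
    | mem X hX =>
      obtain ⟨g, rfl⟩ := hX
      have := h g
      rw [trace_eq ρ b, trace_eq ρ b, mat_mul] at this
      rw [mul_sub, mul_one, Matrix.trace_sub, this, sub_self]
    | zero => simp
    | add X₁ X₂ _ _ h₁ h₂ => rw [add_mul, Matrix.trace_add, h₁, h₂, add_zero]
    | smul c X _ h₁ => rw [Matrix.smul_mul, Matrix.trace_smul, h₁, smul_zero]
  have h1 : LinearMap.toMatrix b b (ρ.ρ τ) = LinearMap.toMatrix b b (1 : Module.End T ρ.V) := by
    rw [LinearMap.toMatrix_one]
    exact sub_eq_zero.mp hC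
  exact (LinearMap.toMatrix b b).injective h1

end H9S31
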