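import Mathlib
import Fermat.Agent.W3G.DefsGeom
import Fermat.Prelude.Def_CuspForm_HeckeGaloisRepDatum

/-!
# Item 81 (S31): a Hecke–Galois datum is unramified outside `S` — INTERFACE (helper7)

Route (helper7 = helper23, checked by lead): compare the trace of `ρ` with the "universal trace"
`g + d(g) g⁻¹` on `J₀(N)[p^m]` (Hecke algebra acting faithfully on `Lpar N`), finite level by finite
level, via weak Chebotarev; then Burnside + the trace form.  No reducedness of the Hecke algebra,
no field-valued points, characteristic `p` allowed.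

Slices (prove `theorem xyz : H7S31.<Name>Statement ...` in your own file
`Fermat/Agent/S31/<Slice>_<seat>.lean`, own namespace):

* `FaithStatement N S`   **F**: the Hecke algebra of the prelude acts faithfully on `Lpar N`
* **SAT** (pure algebra, saturation has finite index): DONE, `LeadS31.faith` in `S31/Faith_lead.lean`
* `BurnStatement`         **BN**: Burnside + trace form
* `TraceTStatement`, `TraceJStatement`   **TR**: trace of powers on both sides (helper7)
* assembly `S31/Main_helper7.lean` (helper7)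
-/

set_option autoImplicit false

noncomputable section

open Polynomial

namespace H7S31

open H11W3G ModularCurve

/-- the power sums `s_b(t, d)` of the roots of `X² - t X + d`:
`s₀ = 2`, `s₁ = t`, `s_{b+2} = t s_{b+1} - d s_b`. -/
def powSum {R : Type*} [Ring R] (t d : R) : ℕ → R
  | 0 => 2
  | 1 => t
  | (b + 2) => t * powSum t d (b + 1) - d * powSum t d b

theorem powSum_zero {R : Type*} [Ring R] (t d : R) : powSum t d 0 = 2 := rfl

theorem powSum_one {R : Type*} [Ring R] (t d : R) : powSum t d 1 = t := rfl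

theorem powSum_succ_succ {R : Type*} [Ring R] (t d : R) (b : ℕ) :
    powSum t d (b + 2) = t * powSum t d (b + 1) - d * powSum t d b := rfl

theorem map_powSum {R R' : Type*} [Ring R] [Ring R'] (f : R →+* R') (t d : R) (b : ℕ) :
    f (powSum t d b) = powSum (f t) (f d) b := by
  induction b using Nat.strong_induction_on with
  | _ b ih =>
    match b, ih with
    | 0, _ => rw [powSum_zero, powSum_zero, map_ofNat]
    | 1, _ => rw [powSum_one, powSum_one]
    | (b + 2), ih =>
      rw [powSum_succ_succ, powSum_succ_succ, map_sub, map_mul, map_mul,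
        ih (b + 1) (by omega), ih b (by omega)]

/-- **F (faithfulness)**: if all primes dividing `N` lie in `S`, the Hecke algebra of the prelude
(generated by the `T_ℓ`, `ℓ ∤ N`, `ℓ ∉ S`, inside `End_ℂ S₂(Γ₀(N))`) acts faithfully on the lattice
`Lpar N = Hom_par(Γ₀(N), ℤ)`, `T_ℓ` acting by the classical formula.
(Period map: S21 injective with range the parabolic classes + Hecke equivariance `S16/A_H1`;
a polynomial with integer coefficients in the `T_ℓ` vanishes on `S₂` iff it vanishes on `Lpar`.) -/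
def FaithStatement (N : ℕ) [NeZero N] (S : Finset ℕ) : Prop :=
  (∀ q : ℕ, q.Prime → q ∣ N → q ∈ S) →
  ∃ Θ : CuspForm.heckeAlgebra N 2 (↑S : Set ℕ) →+* Module.End ℤ (Lpar N),
    Function.Injective Θ ∧
    ∀ (ℓ : ℕ) [Fact ℓ.Prime] (hℓ : ℓ.Prime) (hℓN : ¬ ℓ ∣ N) (hℓS : ℓ ∉ (↑S : Set ℕ)),
      IsHeckeL hℓN (Θ (CuspForm.heckeAlgebra.T hℓ hℓN hℓS))

/-- **BN (Burnside + trace form)**: if the residual representation is absolutely irreducible and
`tr ρ(g τ) = tr ρ(g)` for all `g`, then `ρ(τ) = 1`. -/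
def BurnStatement : Prop :=
  ∀ (T : Type) [CommRing T] [IsLocalRing T] (ρ : GaloisRepAdic T),
    ρ.residual.IsAbsolutelyIrreducible →
    ∀ τ : GQ,
      (∀ g : GQ, LinearMap.trace T ρ.V (ρ.ρ (g * τ)) = LinearMap.trace T ρ.V (ρ.ρ g)) →
      ρ.ρ τ = 1

/-- **TR-T**: trace of the powers of an endomorphism of a free module of rank 2 with
characteristic polynomial `X² - t X + d`. -/
def TraceTStatement : Prop :=
  ∀ (T : Type) [CommRing T] (V : Type) [AddCommGroup V] [Module T V] [Module.Free T V]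
    [Module.Finite T V], Module.finrank T V = 2 →
    ∀ (M : Module.End T V) (t d : T), LinearMap.charpoly M = X ^ 2 - C t * X + C d →
      ∀ b : ℕ, LinearMap.trace T V (M ^ b) = powSum t d b

/-- **TR-J**: on the `n`-torsion of an abelian group with an action of a group `G`, `σ ∈ G` and
a commuting endomorphism `t` with `σ² - t σ + ℓ = 0`: `s_b(t, ℓ) = σ^b + ℓ^b σ^{-b}`. -/
def TraceJStatement : Prop :=
  ∀ (G : Type) [Group G] (J : Type) [AddCommGroup J] [DistribMulAction G J]
    (σ : G) (t : Module.End ℤ J) (n ℓ : ℕ),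
    (∀ x : J, σ • t x = t (σ • x)) →
    (∀ x : J, n • x = 0 → σ • σ • x - t (σ • x) + ℓ • x = 0) →
    ∀ (b : ℕ) (x : J), n • x = 0 →
      powSum t ((ℓ : ℤ) • (1 : Module.End ℤ J)) b x = σ ^ b • x + ℓ ^ b • (σ ^ b)⁻¹ • x

end H7S31

end

noncomputable section

namespace H7S31

open H11W3G ModularCurve

/-- **F'' (faithfulness, easy direction; helper29)**: a ring `𝔸` with an INJECTIVE ring hom
`pr₁ : 𝔸 → End_ℤ(Lpar N)` and a ring hom `pr₂ : 𝔸 → heckeAlgebra N 2 S`, containing for every
prime `ℓ ∤ N`, `ℓ ∉ S` an element `t_ℓ` with `pr₁ t_ℓ` the classical `T_ℓ` on `Lpar N` and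
`pr₂ t_ℓ = T_ℓ`.  This is what the assembly of S31 uses (with `LeadS31.faith` for `Θ = pr₁`). -/
def FaithEasyStatement (N : ℕ) [NeZero N] (S : Finset ℕ) : Prop :=
  ∃ (𝔸 : Type) (_ : Ring 𝔸) (pr₁ : 𝔸 →+* Module.End ℤ (Lpar N))
    (pr₂ : 𝔸 →+* CuspForm.heckeAlgebra N 2 (↑S : Set ℕ)),
    Function.Injective pr₁ ∧
    ∀ (ℓ : ℕ) [Fact ℓ.Prime] (hℓ : ℓ.Prime) (hℓN : ¬ ℓ ∣ N) (hℓS : ℓ ∉ (↑S : Set ℕ)),
      ∃ t : 𝔸, IsHeckeL hℓN (pr₁ t) ∧ pr₂ t = CuspForm.heckeAlgebra.T hℓ hℓN hℓS

end H7S31

end
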