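/-
S31 (row 30), slice S31-BURN (helper9): `H9S31.burn : H7S31.BurnStatement`.
-/
import Fermat.Agent.S31.Burn_helper9
import Fermat.Agent.S31.Defs_helper7

set_option autoImplicit false

namespace H9S31

/-- **BN (Burnside + trace form)** in helper7's interface form. -/
theorem burn : H7S31.BurnStatement :=
  fun _ _ _ ρ habs τ h => rho_eq_one_of_trace ρ habs τ h

end H9S31
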