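import Mathlib
import Fermat.Agent.W3G.EIGHAdic_helper29

/-!
# Item 81 (S31), slice F (helper29): the Hecke algebra acts faithfully on `Hom_par(Γ₀(N), ℤ)`

`Λ = Lpar N = Hom_par(Γ₀(N), ℤ)`.  We construct a ring `𝔸 = H29F.h29fAlg N S` (the subalgebra of
`End_ℤ(Λ) × End_ℂ(S₂(Γ₀(N)))` generated by the pairs `(T_ℓ^Λ, T_ℓ)`, `ℓ ∤ N`, `ℓ ∉ S`) with

* `H29F.h29fPr₁ : 𝔸 →+* End_ℤ(Λ)`, **injective** (`h29f_pr₁_injective`);
* `H29F.h29fPr₂ : 𝔸 →+* heckeAlgebra N 2 S`;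
* `H29F.h29fT hℓ hℓN hℓS T hT : 𝔸` with `pr₁ = T`, `pr₂ = heckeAlgebra.T hℓ hℓN hℓS`.

Hence every integer polynomial identity/congruence among the `T_ℓ^Λ` on `Λ` descends to the Hecke
algebra of the prelude: if `P(T^Λ) ∈ p^m End(Λ)` then (saturation, `LeadS31.faith` with
`Θ := pr₁`) `P(t) = p^(m-c) t'` in `𝔸`, so `P(T) = p^(m-c) pr₂ t'` in `heckeAlgebra N 2 S`.

Only the easy direction of Eichler–Shimura is used (the period map is injective and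
Hecke-equivariant).  Packaged form: `H29F.h29f_faith`.
-/

set_option autoImplicit false
set_option linter.style.longLine false
set_option linter.unusedSectionVars false
set_option linter.unusedVariables false
set_option linter.style.haveILetI false

noncomputable section

open ModularFormClass CongruenceSubgroup ModularCurve ModularCurve.Period TensorProduct

namespace H29F

variable (N : ℕ) [NeZero N] (S : Finset ℕ)

/-- the generators `(T_ℓ^Λ, T_ℓ)` -/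
def h29fGens : Set (Module.End ℤ (H11W3G.Lpar N) × Module.End ℂ (CuspForm (Gamma0 N) 2)) :=
  {x | ∃ (ℓ : ℕ) (_ : Fact ℓ.Prime) (hℓ : ℓ.Prime) (hℓN : ¬ ℓ ∣ N) (_ : ℓ ∉ (↑S : Set ℕ))
    (T : H11W3G.Lpar N →ₗ[ℤ] H11W3G.Lpar N), H11W3G.IsHeckeL hℓN T ∧
      x = (T, CuspForm.heckeTLin 2 hℓ hℓN)}

/-- the algebra generated by the pairs `(T_ℓ^Λ, T_ℓ)` -/
def h29fAlg : Subalgebra ℤ (Module.End ℤ (H11W3G.Lpar N) × Module.End ℂ (CuspForm (Gamma0 N) 2)) :=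
  Algebra.adjoin ℤ (h29fGens N S)

/-- the compatibility relation between an endomorphism of `Λ` and an endomorphism of `S₂` -/
def h29fRel (a : Module.End ℤ (H11W3G.Lpar N)) (b : Module.End ℂ (CuspForm (Gamma0 N) 2)) : Prop :=
  ∀ (f : CuspForm (Gamma0 N) 2) (v : ℂ ⊗[ℤ] H11W3G.Lpar N),
    (∀ γ : Gamma0 N, H29EA.h29ea_ev ℂ (H11W3G.Lpar N) γ v = periodMap N f (Additive.ofMul γ)) →
    ∀ γ : Gamma0 N, H29EA.h29ea_ev ℂ (H11W3G.Lpar N) γ (a.baseChange ℂ v) =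
      periodMap N (b f) (Additive.ofMul γ)

/-- the period homomorphism of a cusp form comes from `ℂ ⊗ Λ` -/
theorem h29f_exists_tensor (f : CuspForm (Gamma0 N) 2) :
    ∃ v : ℂ ⊗[ℤ] H11W3G.Lpar N, ∀ γ : Gamma0 N,
      H29EA.h29ea_ev ℂ (H11W3G.Lpar N) γ v = periodMap N f (Additive.ofMul γ) := by
  obtain ⟨s, hs⟩ := Group.fg_def.mp (H22.groupFG_Gamma0 (N := N))
  exact H29EA.h29ea_exists_tensor ℂ (H11W3G.Lpar N) s hs
    {γ : Gamma0 N | ((γ : Matrix.SpecialLinearGroup (Fin 2) ℤ) :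
      Matrix (Fin 2) (Fin 2) ℤ).trace ^ 2 = 4}
    (fun lam hlam => (mem_parabolicHoms_iff (R := ℤ)).mpr fun γ hγ => hlam γ hγ)
    (periodMap N f)
    (fun γ hγ => (mem_parabolicHoms_iff (R := ℂ)).mp (H21E1.periodMap_mem_parabolicHoms f) γ hγ)

theorem h29f_rel_gen {ℓ : ℕ} [Fact ℓ.Prime] (hℓ : ℓ.Prime) (hℓN : ¬ ℓ ∣ N)
    (T : H11W3G.Lpar N →ₗ[ℤ] H11W3G.Lpar N) (hT : H11W3G.IsHeckeL hℓN T) :
    h29fRel N T (CuspForm.heckeTLin 2 hℓ hℓN) := by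
  intro f v hv γ
  rw [H29EA.h29ea_ev_baseChange ℂ (H11W3G.Lpar N) T γ (H21S16.transT hℓN γ)
    (fun lam => hT lam γ) v, H21S16.h22a_periodMap_heckeT hℓ hℓN f γ]
  exact Finset.sum_congr rfl fun x _ => hv _

theorem h29f_rel_of_mem {x : Module.End ℤ (H11W3G.Lpar N) × Module.End ℂ (CuspForm (Gamma0 N) 2)}
    (hx : x ∈ h29fAlg N S) : h29fRel N x.1 x.2 := by
  induction hx using Algebra.adjoin_induction with
  | mem x hx =>
    obtain ⟨ℓ, hF, hℓ, hℓN, hℓS, T, hT, rfl⟩ := hx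
    exact h29f_rel_gen N hℓ hℓN T hT
  | algebraMap n =>
    intro f v hv γ
    have h1 : (algebraMap ℤ (Module.End ℤ (H11W3G.Lpar N) ×
        Module.End ℂ (CuspForm (Gamma0 N) 2)) n).1 = n • (1 : Module.End ℤ (H11W3G.Lpar N)) := by
      rw [Algebra.algebraMap_eq_smul_one]; rfl
    have h2 : (algebraMap ℤ (Module.End ℤ (H11W3G.Lpar N) ×
        Module.End ℂ (CuspForm (Gamma0 N) 2)) n).2 =
        n • (1 : Module.End ℂ (CuspForm (Gamma0 N) 2)) := by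
      rw [Algebra.algebraMap_eq_smul_one]; rfl
    rw [h1, h2]
    have h3 : (n • (1 : Module.End ℤ (H11W3G.Lpar N))).baseChange ℂ v = n • v := by
      rw [LinearMap.baseChange_smul]
      show n • ((LinearMap.id : H11W3G.Lpar N →ₗ[ℤ] H11W3G.Lpar N).baseChange ℂ) v = n • v
      rw [LinearMap.baseChange_id]
      rfl
    have h4 : (n • (1 : Module.End ℂ (CuspForm (Gamma0 N) 2))) f = (n : ℂ) • f := by
      rw [LinearMap.smul_apply, Module.End.one_apply, Int.cast_smul_eq_zsmul]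
    rw [h3, h4, H21E1.periodMap_smul, map_zsmul, hv γ]
    show n • periodMap N f (Additive.ofMul γ) = (n : ℂ) • periodMap N f (Additive.ofMul γ)
    rw [Int.cast_smul_eq_zsmul]
  | add x y _ _ hx hy =>
    intro f v hv γ
    show H29EA.h29ea_ev ℂ (H11W3G.Lpar N) γ ((x.1 + y.1).baseChange ℂ v) =
      periodMap N ((x.2 + y.2) f) (Additive.ofMul γ)
    rw [LinearMap.baseChange_add, LinearMap.add_apply, map_add, hx f v hv γ, hy f v hv γ,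
      LinearMap.add_apply, H21E1.periodMap_add]
    rfl
  | mul x y _ _ hx hy =>
    intro f v hv γ
    show H29EA.h29ea_ev ℂ (H11W3G.Lpar N) γ ((x.1 * y.1).baseChange ℂ v) =
      periodMap N ((x.2 * y.2) f) (Additive.ofMul γ)
    rw [LinearMap.baseChange_mul]
    exact hx (y.2 f) (y.1.baseChange ℂ v) (hy f v hv) γ

/-- the first projection -/
def h29fPr₁ : h29fAlg N S →+* Module.End ℤ (H11W3G.Lpar N) :=
  (RingHom.fst _ _).comp (h29fAlg N S).val.toRingHom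

/-- the second projection, with values in the Hecke algebra of the prelude -/
def h29fPr₂ : h29fAlg N S →+* CuspForm.heckeAlgebra N 2 (↑S : Set ℕ) :=
  (((AlgHom.snd ℤ (Module.End ℤ (H11W3G.Lpar N)) (Module.End ℂ (CuspForm (Gamma0 N) 2))).comp
    (h29fAlg N S).val).codRestrict (CuspForm.heckeAlgebra N 2 (↑S : Set ℕ)) (by
      intro x
      have hle : h29fAlg N S ≤ (CuspForm.heckeAlgebra N 2 (↑S : Set ℕ)).comap
          (AlgHom.snd ℤ (Module.End ℤ (H11W3G.Lpar N))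
            (Module.End ℂ (CuspForm (Gamma0 N) 2))) := by
        apply Algebra.adjoin_le
        rintro y ⟨ℓ, hF, hℓ, hℓN, hℓS, T, hT, rfl⟩
        exact CuspForm.heckeTLin_mem_heckeAlgebra hℓ hℓN hℓS
      exact hle x.2)).toRingHom

theorem h29fPr₁_apply (x : h29fAlg N S) : h29fPr₁ N S x = x.1.1 := rfl

theorem h29fPr₂_apply (x : h29fAlg N S) :
    ((h29fPr₂ N S x : CuspForm.heckeAlgebra N 2 (↑S : Set ℕ)) :
      Module.End ℂ (CuspForm (Gamma0 N) 2)) = x.1.2 := rfl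

theorem h29f_pr₁_eq_zero (x : h29fAlg N S) (hx : h29fPr₁ N S x = 0) : x = 0 := by
  obtain ⟨s, hs⟩ := Group.fg_def.mp (H22.groupFG_Gamma0 (N := N))
  have hrel := h29f_rel_of_mem N S x.2
  rw [h29fPr₁_apply] at hx
  apply Subtype.ext
  refine Prod.ext hx ?_
  show x.1.2 = 0
  refine LinearMap.ext fun f => ?_
  rw [LinearMap.zero_apply]
  obtain ⟨v, hv⟩ := h29f_exists_tensor N f
  apply H29EA.h29ea_eq_zero_of_per N hs
  intro γ _
  rw [H29EA.h29ea_per_apply, ← hrel f v hv γ, hx, LinearMap.baseChange_zero,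
    LinearMap.zero_apply, map_zero]

/-- **faithfulness**: `pr₁` is injective -/
theorem h29f_pr₁_injective : Function.Injective (h29fPr₁ N S) := by
  intro x y hxy
  have h1 : h29fPr₁ N S (x - y) = 0 := by
    rw [RingHom.map_sub, hxy, sub_self]
  exact sub_eq_zero.mp (h29f_pr₁_eq_zero N S (x - y) h1)

variable {N S}

/-- the element `(T_ℓ^Λ, T_ℓ)` of `𝔸` -/
def h29fT {ℓ : ℕ} [Fact ℓ.Prime] (hℓ : ℓ.Prime) (hℓN : ¬ ℓ ∣ N) (hℓS : ℓ ∉ (↑S : Set ℕ))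
    (T : H11W3G.Lpar N →ₗ[ℤ] H11W3G.Lpar N) (hT : H11W3G.IsHeckeL hℓN T) : h29fAlg N S :=
  ⟨(T, CuspForm.heckeTLin 2 hℓ hℓN),
    Algebra.subset_adjoin ⟨ℓ, inferInstance, hℓ, hℓN, hℓS, T, hT, rfl⟩⟩

theorem h29fPr₁_T {ℓ : ℕ} [Fact ℓ.Prime] (hℓ : ℓ.Prime) (hℓN : ¬ ℓ ∣ N) (hℓS : ℓ ∉ (↑S : Set ℕ))
    (T : H11W3G.Lpar N →ₗ[ℤ] H11W3G.Lpar N) (hT : H11W3G.IsHeckeL hℓN T) :
    h29fPr₁ N S (h29fT hℓ hℓN hℓS T hT) = T := rfl

theorem h29fPr₂_T {ℓ : ℕ} [Fact ℓ.Prime] (hℓ : ℓ.Prime) (hℓN : ¬ ℓ ∣ N) (hℓS : ℓ ∉ (↑S : Set ℕ))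
    (T : H11W3G.Lpar N →ₗ[ℤ] H11W3G.Lpar N) (hT : H11W3G.IsHeckeL hℓN T) :
    h29fPr₂ N S (h29fT hℓ hℓN hℓS T hT) = CuspForm.heckeAlgebra.T hℓ hℓN hℓS := rfl

variable (N S)

/-- **(F)**, packaged: a ring `𝔸` with an injective ring homomorphism to `End_ℤ(Lpar N)` and a ring
homomorphism to the Hecke algebra, containing elements `t_ℓ ↦ (T_ℓ^Λ, T_ℓ)`. -/
theorem h29f_faith :
    ∃ (𝔸 : Type) (_ : Ring 𝔸) (pr₁ : 𝔸 →+* Module.End ℤ (H11W3G.Lpar N))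
      (pr₂ : 𝔸 →+* CuspForm.heckeAlgebra N 2 (↑S : Set ℕ)),
      Function.Injective pr₁ ∧
      ∀ (ℓ : ℕ) [Fact ℓ.Prime] (hℓ : ℓ.Prime) (hℓN : ¬ ℓ ∣ N) (hℓS : ℓ ∉ (↑S : Set ℕ))
        (T : H11W3G.Lpar N →ₗ[ℤ] H11W3G.Lpar N), H11W3G.IsHeckeL hℓN T →
        ∃ t : 𝔸, pr₁ t = T ∧ pr₂ t = CuspForm.heckeAlgebra.T hℓ hℓN hℓS :=
  ⟨h29fAlg N S, inferInstance, h29fPr₁ N S, h29fPr₂ N S, h29f_pr₁_injective N S,
    fun ℓ _ hℓ hℓN hℓS T hT => ⟨h29fT hℓ hℓN hℓS T hT, rfl, rfl⟩⟩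

end H29F
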