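/-
Item 81 (S31), slice FAITH (lead): saturation of a faithful action on a lattice.

`LeadS31.faith`: `Λ` a finitely generated free `ℤ`-module, `Θ : A →+ End_ℤ(Λ)` injective, `p` prime.
There is `c` such that for all `m` and `h : A`: if `Θ h` maps `Λ` into `p ^ m • Λ` then
`h ∈ p ^ (m - c) • A`.
-/
import Mathlib

set_option autoImplicit false

namespace LeadS31

/-- a subgroup of a finitely generated abelian group has finite index in its saturation:
uniform denominator -/
theorem exists_denominator {E : Type*} [AddCommGroup E] [Module.Finite ℤ E] (R : AddSubgroup E) :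
    ∃ e : ℕ, 0 < e ∧ ∀ y : E, (∃ n : ℕ, 0 < n ∧ n • y ∈ R) → e • y ∈ R := by
  classical
  let Sat : Submodule ℤ E :=
    { carrier := {y | ∃ n : ℕ, 0 < n ∧ n • y ∈ R}
      add_mem' := by
        rintro a b ⟨n, hn, ha⟩ ⟨k, hk, hb⟩
        refine ⟨n * k, Nat.mul_pos hn hk, ?_⟩
        have h1 : (n * k) • a = k • (n • a) := by rw [mul_comm, mul_smul]
        have h2 : (n * k) • b = n • (k • b) := by rw [mul_smul]
        rw [smul_add, h1, h2]
        exact R.add_mem (R.nsmul_mem ha k) (R.nsmul_mem hb n)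
      zero_mem' := ⟨1, one_pos, by rw [smul_zero]; exact R.zero_mem⟩
      smul_mem' := by
        rintro c a ⟨n, hn, ha⟩
        refine ⟨n, hn, ?_⟩
        rw [smul_comm]
        exact R.zsmul_mem ha c }
  have hfg : Sat.FG := IsNoetherian.noetherian Sat
  obtain ⟨s, hs⟩ := hfg
  have hmem : ∀ y ∈ s, ∃ n : ℕ, 0 < n ∧ n • y ∈ R := fun y hy => by
    have h : y ∈ Sat := hs ▸ Submodule.subset_span hy
    exact h
  choose! n hn0 hnR using hmem
  refine ⟨∏ y ∈ s, n y, Finset.prod_pos hn0, ?_⟩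
  intro y hy
  have hySat : y ∈ Submodule.span ℤ (s : Set E) := by rw [hs]; exact hy
  clear hy
  induction hySat using Submodule.span_induction with
  | mem x hx =>
    have hx' : x ∈ s := hx
    rw [← Finset.mul_prod_erase s n hx', mul_comm, mul_smul]
    exact R.nsmul_mem (hnR x hx') _
  | zero => rw [smul_zero]; exact R.zero_mem
  | add a b _ _ ha hb => rw [smul_add]; exact R.add_mem ha hb
  | smul c a _ ha => rw [smul_comm]; exact R.zsmul_mem ha c

/-- **FAITH**: saturation of a faithful action on a lattice. -/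
theorem faith {Λ A : Type*} [AddCommGroup Λ] [Module.Finite ℤ Λ] [Module.Free ℤ Λ]
    [AddCommGroup A] (Θ : A →+ Module.End ℤ Λ) (hΘ : Function.Injective Θ) (p : ℕ)
    (hp : p.Prime) :
    ∃ c : ℕ, ∀ (m : ℕ) (h : A), (∀ x : Λ, ∃ z : Λ, Θ h x = (p ^ m) • z) →
      ∃ h' : A, h = (p ^ (m - c)) • h' := by
  classical
  -- torsion-freeness
  have htfΛ : ∀ (n : ℕ) (a b : Λ), 0 < n → n • a = n • b → a = b := by
    intro n a b hn hab
    have h0 : (n : ℤ) • (a - b) = 0 := by
      rw [smul_sub, natCast_zsmul, natCast_zsmul, hab, sub_self]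
    have h1 : (n : ℤ) ≠ 0 := by exact_mod_cast hn.ne'
    have := (smul_eq_zero.mp h0).resolve_left h1
    exact sub_eq_zero.mp this
  have htfE : ∀ (n : ℕ) (a b : Module.End ℤ Λ), 0 < n → n • a = n • b → a = b := by
    intro n a b hn hab
    ext x
    apply htfΛ n _ _ hn
    have := congrArg (fun f : Module.End ℤ Λ => f x) hab
    simpa using this
  have htfA : ∀ (n : ℕ) (a b : A), 0 < n → n • a = n • b → a = b := by
    intro n a b hn hab
    apply hΘ
    apply htfE n _ _ hn
    rw [← map_nsmul, ← map_nsmul, hab]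
  obtain ⟨e, he0, he⟩ := exists_denominator (E := Module.End ℤ Λ) Θ.range
  obtain ⟨c, e', hpe', hee'⟩ := Nat.exists_eq_pow_mul_and_not_dvd he0.ne' p hp.ne_one
  refine ⟨c, fun m h hx => ?_⟩
  by_cases hmc : m ≤ c
  · refine ⟨h, ?_⟩
    rw [Nat.sub_eq_zero_of_le hmc, pow_zero, one_smul]
  · push_neg at hmc
    have hpm : 0 < p ^ m := pow_pos hp.pos m
    choose z hz using hx
    let y : Module.End ℤ Λ :=
      { toFun := z
        map_add' := fun a b => htfΛ (p ^ m) _ _ hpm (by
          rw [smul_add, ← hz, ← hz, ← hz, map_add])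
        map_smul' := fun k a => htfΛ (p ^ m) _ _ hpm (by
          rw [RingHom.id_apply, smul_comm, ← hz, ← hz, map_smul]) }
    have hy : (p ^ m) • y = Θ h := by
      ext x
      rw [LinearMap.smul_apply, hz x]
      rfl
    obtain ⟨h1, hh1⟩ := he y ⟨p ^ m, hpm, by rw [hy]; exact ⟨h, rfl⟩⟩
    have h2 : e • h = (p ^ m) • h1 := by
      apply hΘ
      rw [map_nsmul, map_nsmul, hh1, ← hy, smul_comm]
    have h3 : e' • h = (p ^ (m - c)) • h1 := by
      apply htfA (p ^ c) _ _ (pow_pos hp.pos c)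
      rw [← mul_smul, ← mul_smul, ← hee', ← pow_add, Nat.add_sub_cancel' hmc.le, h2]
    have hcop : IsCoprime (e' : ℤ) ((p ^ (m - c) : ℕ) : ℤ) := by
      rw [Nat.isCoprime_iff_coprime]
      exact Nat.Coprime.pow_right _ ((Nat.Prime.coprime_iff_not_dvd hp).mpr hpe').symm
    obtain ⟨u, v, huv⟩ := hcop
    refine ⟨u • h1 + v • h, ?_⟩
    have h4 : h = (u * (e' : ℤ) + v * ((p ^ (m - c) : ℕ) : ℤ)) • h := by rw [huv, one_smul]
    rw [add_smul, mul_smul, mul_smul, natCast_zsmul, natCast_zsmul, h3] at h4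
    rw [smul_add, smul_comm _ u, smul_comm _ v]
    exact h4

end LeadS31
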