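import Mathlib
import Fermat.Agent.S31.Defs_helper7
import Fermat.Agent.S31.F_helper29
import Fermat.Agent.S31.Faith_lead
import Fermat.Agent.W3G.EIGH0_helper13
import Fermat.Agent.W3G.EigenAdic_helper23

/-!
# Item 81 (S31), slice F (helper29): `H7S31.FaithEasyStatement N S`, and F + SAT combined

* `H29F.h29f_faithEasy N S : H7S31.FaithEasyStatement N S` (unconditional);
* `H29F.h29f_sat N S p hp` : F'' combined with the saturation lemma `LeadS31.faith`:
  there is `c` such that for all `m` and all `u ∈ 𝔸 = h29fAlg N S`: if `pr₁ u` maps `Lpar N` into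
  `p ^ m • Lpar N` then `pr₂ u ∈ p ^ (m - c) • heckeAlgebra N 2 S`.
-/

set_option autoImplicit false
set_option linter.style.longLine false
set_option linter.unusedSectionVars false
set_option linter.unusedVariables false
set_option linter.style.haveILetI false

noncomputable section

open ModularFormClass CongruenceSubgroup ModularCurve ModularCurve.Period TensorProduct

namespace H29F

variable (N : ℕ) [NeZero N] (S : Finset ℕ)

/-- **F''**: `H7S31.FaithEasyStatement N S` -/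
theorem h29f_faithEasy : H7S31.FaithEasyStatement N S :=
  ⟨h29fAlg N S, inferInstance, h29fPr₁ N S, h29fPr₂ N S, h29f_pr₁_injective N S,
    fun ℓ _ hℓ hℓN hℓS =>
      ⟨h29fT hℓ hℓN hℓS (H13E0.heckeL hℓN) (H13E0.isHeckeL_heckeL hℓN),
        H13E0.isHeckeL_heckeL hℓN, rfl⟩⟩

/-- F + SAT, abstract form -/
theorem h29f_sat_abs {Λ A B : Type*} [AddCommGroup Λ] [Module.Finite ℤ Λ] [Module.Free ℤ Λ]
    [Ring A] [Ring B] (pr₁ : A →+* Module.End ℤ Λ) (h1 : Function.Injective pr₁) (pr₂ : A →+* B)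
    (p : ℕ) (hp : p.Prime) :
    ∃ c : ℕ, ∀ (m : ℕ) (u : A), (∀ x : Λ, ∃ z : Λ, pr₁ u x = (p ^ m) • z) →
      ∃ h' : B, pr₂ u = (p ^ (m - c)) • h' := by
  obtain ⟨c, hc⟩ := LeadS31.faith (Λ := Λ) (A := A) pr₁.toAddMonoidHom h1 p hp
  refine ⟨c, fun m u hu => ?_⟩
  obtain ⟨u', hu'⟩ := hc m u hu
  refine ⟨pr₂ u', ?_⟩
  rw [hu', map_nsmul]

/-- **F + SAT**: congruences modulo `p ^ m` on `Lpar N` descend to the Hecke algebra, with a
bounded loss `c`. -/
theorem h29f_sat (p : ℕ) (hp : p.Prime) :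
    ∃ c : ℕ, ∀ (m : ℕ) (u : h29fAlg N S),
      (∀ x : H11W3G.Lpar N, ∃ z : H11W3G.Lpar N, h29fPr₁ N S u x = (p ^ m) • z) →
      ∃ h' : CuspForm.heckeAlgebra N 2 (↑S : Set ℕ), h29fPr₂ N S u = (p ^ (m - c)) • h' :=
  h29f_sat_abs (h29fPr₁ N S) (h29f_pr₁_injective N S) (h29fPr₂ N S) p hp

end H29F
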