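import Mathlib

/-!
# Item 81 (S31): abstract group-action lemmas for the assembly (helper7)
-/

set_option autoImplicit false
set_option linter.style.haveILetI false

namespace H7S31

/-- stabiliser of the points `f φ`, `g⁻¹ • f φ`, from a generating set -/
theorem h7s31_stab_abs {G : Type*} [Group G] {J : Type*} [AddCommGroup J] [DistribMulAction G J]
    {Λ : Type*} [AddCommGroup Λ] (f : Λ →+ J) (g δ : G) (s : Set Λ)
    (hs : Submodule.span ℤ s = ⊤)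
    (h1 : ∀ φ ∈ s, δ • f φ = f φ) (h2 : ∀ φ ∈ s, δ • g⁻¹ • f φ = g⁻¹ • f φ)
    (φ : Λ) : δ • f φ = f φ ∧ δ • g⁻¹ • f φ = g⁻¹ • f φ := by
  have hφ : φ ∈ Submodule.span ℤ s := by rw [hs]; trivial
  induction hφ using Submodule.span_induction with
  | mem x hx => exact ⟨h1 x hx, h2 x hx⟩
  | zero =>
    refine ⟨?_, ?_⟩
    · rw [map_zero, smul_zero]
    · rw [map_zero, smul_zero, smul_zero]
  | add x y _ _ hx hy =>
    refine ⟨?_, ?_⟩
    · rw [map_add, smul_add, hx.1, hy.1]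
    · rw [map_add, smul_add, smul_add, hx.2, hy.2]
  | smul a x _ hx =>
    refine ⟨?_, ?_⟩
    · rw [map_zsmul, smul_comm, hx.1]
    · rw [map_zsmul, smul_comm g⁻¹, smul_comm δ, hx.2]

/-- the J-side cancellation -/
theorem h7s31_cancel_abs {G : Type*} [Group G] {J : Type*} [AddCommGroup J]
    [DistribMulAction G J] (x : J) (n : ℕ) (hx : n • x = 0) (g τ σb σb' : G)
    (hτx : τ • x = x) (hτy : ∀ y : J, n • y = 0 → τ⁻¹ • y = y)
    (h1 : (g⁻¹ * σb) • x = x) (h2 : (g⁻¹ * σb) • g⁻¹ • x = g⁻¹ • x)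
    (h1' : ((g * τ)⁻¹ * σb') • x = x) (h2' : ((g * τ)⁻¹ * σb') • g⁻¹ • x = g⁻¹ • x)
    (a a' : ℕ) (k : ℤ) (hk : (a : ℤ) - (a' : ℤ) = (n : ℤ) * k) :
    (σb • x + a • σb⁻¹ • x) - (σb' • x + a' • σb'⁻¹ • x) = 0 := by
  have hy0 : n • (g⁻¹ • x) = 0 := by
    rw [smul_comm, hx, smul_zero]
  have ha : σb • x = g • x := by
    have : σb = g * (g⁻¹ * σb) := by rw [mul_inv_cancel_left]
    rw [this, mul_smul, h1]
  have hb2 : σb⁻¹ • x = g⁻¹ • x := by
    have : σb⁻¹ = (g⁻¹ * σb)⁻¹ * g⁻¹ := by group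
    rw [this, mul_smul, inv_smul_eq_iff, h2]
  have hc2 : σb' • x = g • x := by
    have : σb' = (g * τ) * ((g * τ)⁻¹ * σb') := by rw [mul_inv_cancel_left]
    rw [this, mul_smul, h1', mul_smul, hτx]
  have hd2 : σb'⁻¹ • x = g⁻¹ • x := by
    have : σb'⁻¹ = ((g * τ)⁻¹ * σb')⁻¹ * (τ⁻¹ * g⁻¹) := by group
    rw [this, mul_smul, mul_smul, hτy _ hy0, inv_smul_eq_iff, h2']
  rw [ha, hb2, hc2, hd2, add_sub_add_left_eq_sub]
  have e2 : (a : ℤ) • (g⁻¹ • x) - (a' : ℤ) • (g⁻¹ • x) = 0 := by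
    rw [← sub_smul, hk, mul_smul, natCast_zsmul, smul_comm, hy0, smul_zero]
  rw [natCast_zsmul, natCast_zsmul] at e2
  exact e2

end H7S31
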