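import Mathlib
import Fermat.Agent.S31.Defs_helper7

/-!
# Item 81 (S31): auxiliary lemmas for the assembly (helper7)
-/

set_option autoImplicit false
set_option linter.style.haveILetI false

noncomputable section

open Polynomial

namespace H7S31

open H11W3G ModularCurve

/-- the trace of an endomorphism of a finite free module with image in `I • ⊤` lies in `I` -/
theorem h7s31_trace_mem {T : Type*} [CommRing T] {V : Type*} [AddCommGroup V] [Module T V]
    [Module.Free T V] [Module.Finite T V] (I : Ideal T) (E : Module.End T V)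
    (hE : ∀ v : V, E v ∈ I • (⊤ : Submodule T V)) : LinearMap.trace T V E ∈ I := by
  classical
  let b := Module.Free.chooseBasis T V
  rw [LinearMap.trace_eq_matrix_trace T b, Matrix.trace]
  refine Ideal.sum_mem _ fun i _ => ?_
  rw [Matrix.diag_apply, LinearMap.toMatrix_apply]
  have h1 := hE (b i)
  have h2 : (I • (⊤ : Submodule T V)) ≤ Submodule.comap (b.coord i) I := by
    rw [Submodule.smul_le]
    intro r hr v _
    rw [Submodule.mem_comap, map_smul, smul_eq_mul]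
    exact Ideal.mul_mem_right _ _ hr
  exact h2 h1

/-- intertwining: if `f ∘ A = B ∘ f` then `f ∘ s_b(A, ℓ) = s_b(B, ℓ) ∘ f` -/
theorem h7s31_powSum_intertwine {Λ J : Type*} [AddCommGroup Λ] [AddCommGroup J]
    (f : Λ →+ J) (A : Module.End ℤ Λ) (B : Module.End ℤ J) (ℓ : ℕ)
    (h : ∀ φ : Λ, f (A φ) = B (f φ)) (b : ℕ) (φ : Λ) :
    f (powSum A (ℓ : Module.End ℤ Λ) b φ) =
      powSum B ((ℓ : ℤ) • (1 : Module.End ℤ J)) b (f φ) := by
  induction b using Nat.strong_induction_on generalizing φ with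
  | _ b ih =>
    match b, ih with
    | 0, _ =>
      rw [powSum_zero, powSum_zero]
      have e1 : (2 : Module.End ℤ Λ) φ = φ + φ := by
        rw [show (2 : Module.End ℤ Λ) = 1 + 1 by norm_num]; rfl
      have e2 : (2 : Module.End ℤ J) (f φ) = f φ + f φ := by
        rw [show (2 : Module.End ℤ J) = 1 + 1 by norm_num]; rfl
      rw [e1, e2, map_add]
    | 1, _ => rw [powSum_one, powSum_one, h]
    | (b + 2), ih =>
      rw [powSum_succ_succ, powSum_succ_succ, LinearMap.sub_apply, LinearMap.sub_apply, map_sub,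
        Module.End.mul_apply, Module.End.mul_apply, Module.End.mul_apply, Module.End.mul_apply,
        h, ih (b + 1) (by omega)]
      congr 1
      have e1 : ∀ y : Λ, (ℓ : Module.End ℤ Λ) y = ℓ • y := by
        intro y
        rw [← Nat.cast_smul_eq_nsmul (Module.End ℤ Λ) ℓ y]
        rfl
      have e2 : ∀ y : J, ((ℓ : ℤ) • (1 : Module.End ℤ J)) y = ℓ • y := by
        intro y
        rw [LinearMap.smul_apply, Module.End.one_apply, natCast_zsmul]
      rw [e1, e2, map_nsmul, ih b (by omega)]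

end H7S31

end

noncomputable section

namespace H7S31

open H11W3G ModularCurve

/-- FINLEV for a finite set of points -/
theorem h7s31_finLev_finset (N : ℕ) [NeZero N] (hFin : FinLevStatement N)
    (X : Finset (JZero N)) :
    ∃ L : IntermediateField ℚ (AlgebraicClosure ℚ), FiniteDimensional ℚ L ∧
      ∀ σ : GQ, (∀ y ∈ L, σ y = y) → ∀ x ∈ X, σ • x = x := by
  classical
  induction X using Finset.induction_on with
  | empty =>
    refine ⟨⊥, inferInstance, fun σ _ x hx => ?_⟩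
    exact absurd hx (Finset.notMem_empty x)
  | insert a X' _ ih =>
    obtain ⟨L₁, hL₁, h₁⟩ := ih
    obtain ⟨L₂, hL₂, h₂⟩ := hFin a
    haveI := hL₁
    haveI := hL₂
    refine ⟨L₁ ⊔ L₂, inferInstance, fun σ hσ x hx => ?_⟩
    rcases Finset.mem_insert.mp hx with rfl | hx'
    · exact h₂ σ fun y hy => hσ y ((le_sup_right : L₂ ≤ L₁ ⊔ L₂) hy)
    · exact h₁ σ (fun y hy => hσ y ((le_sup_left : L₁ ≤ L₁ ⊔ L₂) hy)) x hx'

/-- T side: if `σ = g` on the level-`n` field of `ρ`, the traces are congruent mod `𝔪ⁿ` -/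
theorem h7s31_trace_congr {T : Type} [CommRing T] [IsLocalRing T] (ρ : GaloisRepAdic T) (n : ℕ)
    (L : IntermediateField ℚ (AlgebraicClosure ℚ))
    (hL : ∀ σ : GQ, (∀ x ∈ L, σ x = x) →
      ∀ v : ρ.V, ρ.ρ σ v - v ∈ (IsLocalRing.maximalIdeal T ^ n) • (⊤ : Submodule T ρ.V))
    (g σ : GQ) (h : ∀ x ∈ L, σ x = g x) :
    LinearMap.trace T ρ.V (ρ.ρ σ) - LinearMap.trace T ρ.V (ρ.ρ g) ∈
      IsLocalRing.maximalIdeal T ^ n := by
  have hδ : ∀ x ∈ L, (g⁻¹ * σ) x = x := by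
    intro x hx
    rw [AlgEquiv.mul_apply, h x hx, AlgEquiv.aut_inv, AlgEquiv.symm_apply_apply]
  have h1 := hL _ hδ
  have hσ : σ = g * (g⁻¹ * σ) := by rw [mul_inv_cancel_left]
  rw [← map_sub]
  apply h7s31_trace_mem
  intro v
  have e : (ρ.ρ σ - ρ.ρ g) v = ρ.ρ g (ρ.ρ (g⁻¹ * σ) v - v) := by
    conv_lhs => rw [hσ, map_mul]
    rw [LinearMap.sub_apply, Module.End.mul_apply, map_sub]
  rw [e]
  have h2 : Submodule.map (ρ.ρ g) ((IsLocalRing.maximalIdeal T ^ n) • (⊤ : Submodule T ρ.V)) ≤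
      (IsLocalRing.maximalIdeal T ^ n) • (⊤ : Submodule T ρ.V) := by
    rw [Submodule.map_smul'']
    exact Submodule.smul_mono le_rfl le_top
  exact h2 (Submodule.mem_map_of_mem (h1 v))

/-- J side: `s_b(T_ℓ, ℓ) = φ^b + ℓ^b φ^{-b}` on `J₀(N)[n]` for a Frobenius lift `φ` at `ℓ ∤ N n` -/
theorem h7s31_J_side (N : ℕ) [NeZero N] (hTJ : TraceJStatement)
    (hESF : ESFrobeniusStatement N) (hComm : CommStatement N) (n : ℕ) (x : JZero N)
    (hx : n • x = 0) (ℓ : ℕ) (hℓ : ℓ.Prime) (hℓN : ¬ ℓ ∣ N) (hℓn : ¬ ℓ ∣ n)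
    (A : ValuationSubring (AlgebraicClosure ℚ)) (hA : A.LiesOverPrime ℓ) (σ : GQ)
    (hσ : A.IsFrobeniusAt σ ℓ) (b : ℕ) :
    powSum (heckeOperatorBar N ⟨ℓ, hℓ⟩) ((ℓ : ℤ) • (1 : Module.End ℤ (JZero N))) b x =
      σ ^ b • x + ℓ ^ b • (σ ^ b)⁻¹ • x :=
  hTJ GQ (JZero N) σ (heckeOperatorBar N ⟨ℓ, hℓ⟩) n ℓ (fun y => hComm ℓ hℓ hℓN σ y)
    (fun y hy => hESF n ℓ hℓ hℓN hℓn A hA σ hσ y hy) b x hx

end H7S31

end
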