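import Mathlib
import Fermat.Agent.S31.Defs_helper7

/-!
# Item 81 (S31): the cyclotomic congruence `ℓ^b ≡ ℓ'^b' mod p^m` (helper7)
-/

set_option autoImplicit false
set_option linter.style.haveILetI false

noncomputable section

namespace H7S31

open H11W3G

/-- if `φ^b = g` and `φ'^b' = g τ` on a suitable finite level `L` (`φ`, `φ'` Frobenius lifts at
`ℓ, ℓ' ≠ p`, `τ` in an inertia group at `q ≠ p`), then `ℓ^b ≡ ℓ'^b' mod p^m`. -/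
theorem h7s31_cyc (p : ℕ) [Fact p.Prime] (hCyc : CycAdicStatement p) (m : ℕ) :
    ∃ L : IntermediateField ℚ (AlgebraicClosure ℚ), FiniteDimensional ℚ L ∧
      ∀ (g τ : GQ) (q : ℕ), q.Prime → q ≠ p →
        ∀ P : ValuationSubring (AlgebraicClosure ℚ), P.LiesOverPrime q →
        τ ∈ P.inertiaSubgroupIn ℚ →
        ∀ (ℓ ℓ' : ℕ), ℓ.Prime → ℓ ≠ p → ℓ'.Prime → ℓ' ≠ p →
        ∀ (A A' : ValuationSubring (AlgebraicClosure ℚ)), A.LiesOverPrime ℓ →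
        A'.LiesOverPrime ℓ' → ∀ (σ σ' : GQ), A.IsFrobeniusAt σ ℓ → A'.IsFrobeniusAt σ' ℓ' →
        ∀ (b b' : ℕ), (∀ x ∈ L, (σ ^ b) x = g x) → (∀ x ∈ L, (σ' ^ b') x = (g * τ) x) →
          ((p : ℤ) ^ m) ∣ ((ℓ : ℤ) ^ b - (ℓ' : ℤ) ^ b') := by
  have hpm : (p : ℤ_[p]) ∈ IsLocalRing.maximalIdeal ℤ_[p] := by
    rw [PadicInt.maximalIdeal_eq_span_p]
    exact Ideal.mem_span_singleton_self _
  obtain ⟨d, hcont, hfrob, hinert, -⟩ := hCyc ℤ_[p] hpm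
  obtain ⟨L, hLfin, hL⟩ := hcont m
  refine ⟨L, hLfin, ?_⟩
  intro g τ q hq hqp P hP hτ ℓ ℓ' hℓ hℓp hℓ' hℓ'p A A' hA hA' σ σ' hσ hσ' b b' hb hb'
  -- general congruence
  have key : ∀ (g₁ g₂ : GQ), (∀ x ∈ L, g₂ x = g₁ x) →
      ((d g₂ : ℤ_[p]ˣ) : ℤ_[p]) - ((d g₁ : ℤ_[p]ˣ) : ℤ_[p]) ∈
        IsLocalRing.maximalIdeal ℤ_[p] ^ m := by
    intro g₁ g₂ h
    have hδ : ∀ x ∈ L, (g₁⁻¹ * g₂) x = x := by
      intro x hx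
      rw [AlgEquiv.mul_apply, h x hx, AlgEquiv.aut_inv, AlgEquiv.symm_apply_apply]
    have h1 := hL _ hδ
    have e : ((d g₂ : ℤ_[p]ˣ) : ℤ_[p]) - ((d g₁ : ℤ_[p]ˣ) : ℤ_[p]) =
        ((d g₁ : ℤ_[p]ˣ) : ℤ_[p]) * (((d (g₁⁻¹ * g₂) : ℤ_[p]ˣ) : ℤ_[p]) - 1) := by
      have : g₂ = g₁ * (g₁⁻¹ * g₂) := by rw [mul_inv_cancel_left]
      conv_lhs => rw [this, map_mul, Units.val_mul]
      ring
    rw [e]
    exact Ideal.mul_mem_left _ _ h1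
  have h1 := key g (σ ^ b) hb
  have h2 := key (g * τ) (σ' ^ b') hb'
  have hτ1 : d (g * τ) = d g := by
    rw [map_mul, hinert q hq hqp P hP τ hτ, mul_one]
  rw [hτ1] at h2
  have h3 : ((d (σ ^ b) : ℤ_[p]ˣ) : ℤ_[p]) = (ℓ : ℤ_[p]) ^ b := by
    rw [map_pow, Units.val_pow_eq_pow_val, hfrob ℓ hℓ hℓp A hA σ hσ]
  have h4 : ((d (σ' ^ b') : ℤ_[p]ˣ) : ℤ_[p]) = (ℓ' : ℤ_[p]) ^ b' := by
    rw [map_pow, Units.val_pow_eq_pow_val, hfrob ℓ' hℓ' hℓ'p A' hA' σ' hσ']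
  rw [h3] at h1
  rw [h4] at h2
  have h5 : (ℓ : ℤ_[p]) ^ b - (ℓ' : ℤ_[p]) ^ b' ∈ IsLocalRing.maximalIdeal ℤ_[p] ^ m := by
    have := Ideal.sub_mem _ h1 h2
    simpa using this
  rw [PadicInt.maximalIdeal_eq_span_p, Ideal.span_singleton_pow, Ideal.mem_span_singleton] at h5
  have h6 : ((((ℓ : ℤ) ^ b - (ℓ' : ℤ) ^ b' : ℤ)) : ℤ_[p]) = (ℓ : ℤ_[p]) ^ b - (ℓ' : ℤ_[p]) ^ b' := by
    push_cast
    rfl
  rw [← h6] at h5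
  exact (PadicInt.pow_p_dvd_int_iff m _).mp h5

end H7S31

end
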