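import Mathlib
import Fermat.Agent.S31.MainAux_helper7
import Fermat.Agent.S31.MainCyc_helper7
import Fermat.Agent.S31.MainAbs_helper7
import Fermat.Agent.S31.Faith_lead
import Fermat.Agent.W3G.EigenAdic_helper23
import Fermat.Agent.W3G.LamBridge_helper11

/-!
# Item 81 (S31): the assembly from `KumStatement N` (helper7)

The assembly `H7S31.h7s31_main` never uses the compatibility clause
`m • lam (n m) φ = lam n φ` of `IsLam`.  Here we restate it with the weaker hypothesis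
`LamWStatement N` (clauses 1, 2, 4 of `IsLam`), which follows from `KumStatement N`
(injectivity + Hecke-compatibility of the Kummer maps) alone: `lam n φ := kum n (φ mod n)`.
-/

set_option autoImplicit false
set_option linter.style.haveILetI false
set_option linter.unusedVariables false
set_option linter.unusedSectionVars false
set_option maxHeartbeats 1000000

noncomputable section

open Polynomial

namespace H7S31

open H11W3G ModularCurve CongruenceSubgroup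

/-- comparison maps without the compatibility clause -/
def LamWStatement (N : ℕ) [NeZero N] : Prop :=
  ∃ lam : ℕ → (Lpar N →+ JZero N),
    (∀ (n : ℕ) (φ : Lpar N), n • lam n φ = 0) ∧
    (∀ n : ℕ, 0 < n → ∀ φ : Lpar N, lam n φ = 0 → ∃ φ' : Lpar N, φ = n • φ') ∧
    (∀ n : ℕ, 0 < n → ∀ (ℓ : ℕ) [Fact ℓ.Prime] (hℓ : ℓ.Prime) (hℓN : ¬ ℓ ∣ N)
      (T : Lpar N →ₗ[ℤ] Lpar N), IsHeckeL hℓN T →
        ∀ φ : Lpar N, lam n (T φ) = heckeOperatorBar N ⟨ℓ, hℓ⟩ (lam n φ))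

theorem h7s31_lamW_of_lam (N : ℕ) [NeZero N] (h : LamStatement N) : LamWStatement N := by
  obtain ⟨lam, h1, h2, _, h4⟩ := h
  exact ⟨lam, h1, h2, h4⟩

/-- `KumStatement N → LamWStatement N`: `lam n φ := kum n (φ mod n)`. -/
theorem h7s31_lamW_of_kum (N : ℕ) [NeZero N] (hK : KumStatement N) : LamWStatement N := by
  obtain ⟨kum, hinj, hhecke⟩ := hK
  refine ⟨fun n => (kum n).comp (h11lb_red N n), ?_, ?_, ?_⟩
  · intro n φ
    show n • kum n (h11lb_red N n φ) = 0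
    rw [← map_nsmul, h11lb_nsmul_hpe, map_zero]
  · intro n hn φ h
    have h0 : kum n (h11lb_red N n φ) = kum n 0 := by rw [map_zero]; exact h
    exact h11lb_div N n hn φ (hinj n hn h0)
  · intro n hn ℓ _ hℓ hℓN T hT φ
    obtain ⟨χ', hχ', hk⟩ := hhecke n hn ℓ hℓ hℓN (h11lb_red N n φ)
    show kum n (h11lb_red N n (T φ)) = heckeOperatorBar N ⟨ℓ, hℓ⟩ (kum n (h11lb_red N n φ))
    rw [← hk]
    congr 1
    apply Subtype.ext
    apply AddMonoidHom.ext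
    intro γ
    have h1 := hχ' (Additive.toMul γ)
    have h2 := hT φ (Additive.toMul γ)
    show (((T φ : Additive (Gamma0 N) →+ ℤ) γ : ℤ) : ZMod n) = _
    rw [show γ = Additive.ofMul (Additive.toMul γ) from rfl, h1, h2]
    unfold H21S16.heckeTFun
    rw [Int.cast_sum]
    rfl

variable {p : ℕ} {N : ℕ} [NeZero N] {S : Finset ℕ}
  {𝒪 : Type} [CommRing 𝒪] [IsDomain 𝒪] [IsDiscreteValuationRing 𝒪]
  [IsAdicComplete (IsLocalRing.maximalIdeal 𝒪) 𝒪]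
  {θ : CuspForm.heckeAlgebra N 2 (↑S : Set ℕ) →+* IsLocalRing.ResidueField 𝒪}
  {T : Type} [CommRing T] [IsLocalRing T] [IsNoetherianRing T]
  [IsAdicComplete (IsLocalRing.maximalIdeal T) T] [Algebra 𝒪 T] [IsLocalHom (algebraMap 𝒪 T)]
  [Module.Finite 𝒪 T] [Module.Free 𝒪 T]

theorem h7s31_mainW (hBurn : BurnStatement) (hTT : TraceTStatement) (hTJ : TraceJStatement)
    (hCheb : ChebStatement) (hCyc : CycAdicStatement p) (hF : FaithEasyStatement N S)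
    (hLam : LamWStatement N) (hESI : ESInertiaStatement N) (hESF : ESFrobeniusStatement N)
    (hComm : CommStatement N) (hFin : FinLevStatement N)
    (hp : p.Prime) (hp𝒪 : (p : 𝒪) ∈ IsLocalRing.maximalIdeal 𝒪) (hpS : p ∈ S)
    (hNS : ∀ q : ℕ, q.Prime → q ∣ N → q ∈ S)
    (H : CuspForm.HeckeGaloisRepDatum N (↑S : Set ℕ) 𝒪 θ T)
    (q : ℕ) (hq : q.Prime) (hqS : q ∉ S) :
    H.ρ.IsUnramifiedAt q := by
  classical
  haveI : Fact p.Prime := ⟨hp⟩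
  intro P hP τ hτ
  refine hBurn T H.ρ H.residual_absIrr τ fun g => ?_
  rw [← sub_eq_zero]
  -- separatedness
  have hsep : ∀ x : T, (∀ n : ℕ, x ∈ IsLocalRing.maximalIdeal T ^ n) → x = 0 := by
    intro x hx
    have h0 := Ideal.iInf_pow_eq_bot_of_isLocalRing (IsLocalRing.maximalIdeal T)
      (Ideal.IsMaximal.ne_top inferInstance)
    have : x ∈ ⨅ i, IsLocalRing.maximalIdeal T ^ i := by
      rw [Ideal.mem_iInf]; exact hx
    rw [h0] at this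
    exact this
  apply hsep
  intro n
  -- the data
  obtain ⟨𝔸, h𝔸, pr₁, pr₂, hinj, hT⟩ := hF
  obtain ⟨c, hc⟩ := LeadS31.faith (pr₁ : 𝔸 →+ Module.End ℤ (Lpar N)) hinj p hp
  obtain ⟨lam, hlam1, hlam2, hlam4⟩ := hLam
  obtain ⟨L₁, hL₁fin, hL₁⟩ := H.ρ.isAdicContinuous n
  obtain ⟨L₃, hL₃fin, hL₃⟩ := h7s31_cyc p hCyc (n + c)
  obtain ⟨s, hs⟩ := (Module.Finite.fg_top : (⊤ : Submodule ℤ (Lpar N)).FG)
  have hpm : 0 < p ^ (n + c) := pow_pos hp.pos _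
  obtain ⟨L₂, hL₂fin, hL₂⟩ := h7s31_finLev_finset N hFin
    (s.image (fun φ => lam (p ^ (n + c)) φ) ∪ s.image (fun φ => g⁻¹ • lam (p ^ (n + c)) φ))
  haveI := hL₁fin
  haveI := hL₂fin
  haveI := hL₃fin
  have hle₁ : L₁ ≤ L₁ ⊔ L₂ ⊔ L₃ := le_sup_left.trans le_sup_left
  have hle₂ : L₂ ≤ L₁ ⊔ L₂ ⊔ L₃ := le_sup_right.trans le_sup_left
  have hle₃ : L₃ ≤ L₁ ⊔ L₂ ⊔ L₃ := le_sup_right
  obtain ⟨ℓ, A, σ, b, hℓ, hℓS, hA, hσ, hb, hσg⟩ := hCheb (L₁ ⊔ L₂ ⊔ L₃) inferInstance g S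
  obtain ⟨ℓ', A', σ', b', hℓ', hℓ'S, hA', hσ', hb', hσ'g⟩ :=
    hCheb (L₁ ⊔ L₂ ⊔ L₃) inferInstance (g * τ) S
  have hℓN : ¬ ℓ ∣ N := fun h => hℓS (hNS ℓ hℓ h)
  have hℓ'N : ¬ ℓ' ∣ N := fun h => hℓ'S (hNS ℓ' hℓ' h)
  have hqN : ¬ q ∣ N := fun h => hqS (hNS q hq h)
  have hℓp : ℓ ≠ p := fun h => hℓS (h ▸ hpS)
  have hℓ'p : ℓ' ≠ p := fun h => hℓ'S (h ▸ hpS)
  have hqp : q ≠ p := fun h => hqS (h ▸ hpS)
  have hℓm : ¬ ℓ ∣ p ^ (n + c) := fun h =>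
    hℓp ((Nat.prime_dvd_prime_iff_eq hℓ hp).mp (hℓ.dvd_of_dvd_pow h))
  have hℓ'm : ¬ ℓ' ∣ p ^ (n + c) := fun h =>
    hℓ'p ((Nat.prime_dvd_prime_iff_eq hℓ' hp).mp (hℓ'.dvd_of_dvd_pow h))
  have hqm : ¬ q ∣ p ^ (n + c) := fun h =>
    hqp ((Nat.prime_dvd_prime_iff_eq hq hp).mp (hq.dvd_of_dvd_pow h))
  have hℓS' : ℓ ∉ (↑S : Set ℕ) := by simpa using hℓS
  have hℓ'S' : ℓ' ∉ (↑S : Set ℕ) := by simpa using hℓ'S
  -- T side
  have hT1 := h7s31_trace_congr H.ρ n L₁ hL₁ g (σ ^ b) (fun x hx => hσg x (hle₁ hx))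
  have hT2 := h7s31_trace_congr H.ρ n L₁ hL₁ (g * τ) (σ' ^ b') (fun x hx => hσ'g x (hle₁ hx))
  have hT3 : LinearMap.trace T H.ρ.V (H.ρ.ρ (σ ^ b)) =
      powSum (H.π (CuspForm.heckeAlgebra.T hℓ hℓN hℓS')) (ℓ : T) b := by
    rw [map_pow]
    exact hTT T H.ρ.V H.ρ.finrank_eq (H.ρ.ρ σ) _ _ (H.charpoly_frob ℓ hℓ hℓN hℓS' A hA σ hσ) b
  have hT4 : LinearMap.trace T H.ρ.V (H.ρ.ρ (σ' ^ b')) =
      powSum (H.π (CuspForm.heckeAlgebra.T hℓ' hℓ'N hℓ'S')) (ℓ' : T) b' := by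
    rw [map_pow]
    exact hTT T H.ρ.V H.ρ.finrank_eq (H.ρ.ρ σ') _ _
      (H.charpoly_frob ℓ' hℓ' hℓ'N hℓ'S' A' hA' σ' hσ') b'
  -- the elements of 𝔸
  haveI hFℓ : Fact ℓ.Prime := ⟨hℓ⟩
  haveI hFℓ' : Fact ℓ'.Prime := ⟨hℓ'⟩
  obtain ⟨t, ht1, ht2⟩ := hT ℓ hℓ hℓN hℓS'
  obtain ⟨t', ht'1, ht'2⟩ := hT ℓ' hℓ' hℓ'N hℓ'S'
  -- cyclotomic congruence
  have hcyc := hL₃ g τ q hq hqp P hP hτ ℓ ℓ' hℓ hℓp hℓ' hℓ'p A A' hA hA' σ σ' hσ hσ' b b'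
    (fun x hx => hσg x (hle₃ hx)) (fun x hx => hσ'g x (hle₃ hx))
  -- stabilisers
  have hδ : ∀ x ∈ L₂, (g⁻¹ * σ ^ b) x = x := by
    intro x hx
    rw [AlgEquiv.mul_apply, hσg x (hle₂ hx), AlgEquiv.aut_inv, AlgEquiv.symm_apply_apply]
  have hδ' : ∀ x ∈ L₂, ((g * τ)⁻¹ * σ' ^ b') x = x := by
    intro x hx
    rw [AlgEquiv.mul_apply, hσ'g x (hle₂ hx), AlgEquiv.aut_inv, AlgEquiv.symm_apply_apply]
  have hst := h7s31_stab_abs (lam (p ^ (n + c))) g (g⁻¹ * σ ^ b) (s : Set (Lpar N)) hs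
    (fun φ hφ => hL₂ _ hδ _ (Finset.mem_union_left _ (Finset.mem_image_of_mem _ hφ)))
    (fun φ hφ => hL₂ _ hδ _ (Finset.mem_union_right _ (Finset.mem_image_of_mem _ hφ)))
  have hst' := h7s31_stab_abs (lam (p ^ (n + c))) g ((g * τ)⁻¹ * σ' ^ b') (s : Set (Lpar N)) hs
    (fun φ hφ => hL₂ _ hδ' _ (Finset.mem_union_left _ (Finset.mem_image_of_mem _ hφ)))
    (fun φ hφ => hL₂ _ hδ' _ (Finset.mem_union_right _ (Finset.mem_image_of_mem _ hφ)))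
  -- J side
  have hJ : ∀ φ : Lpar N, ∃ ψ : Lpar N,
      (pr₁ : 𝔸 →+ Module.End ℤ (Lpar N))
        (powSum t (ℓ : 𝔸) b - powSum t' (ℓ' : 𝔸) b') φ = (p ^ (n + c)) • ψ := by
    intro φ
    apply hlam2 (p ^ (n + c)) hpm
    set x : JZero N := lam (p ^ (n + c)) φ with hx
    have hx0 : (p ^ (n + c)) • x = 0 := hlam1 _ φ
    have hτx : τ • x = x := hESI _ q hq hqN hqm P hP τ hτ x hx0
    have hτy : ∀ y : JZero N, (p ^ (n + c)) • y = 0 → τ⁻¹ • y = y := fun y hy =>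
      hESI _ q hq hqN hqm P hP τ⁻¹ (Subgroup.inv_mem _ hτ) y hy
    have e1 : (pr₁ : 𝔸 →+ Module.End ℤ (Lpar N))
        (powSum t (ℓ : 𝔸) b - powSum t' (ℓ' : 𝔸) b') =
        powSum (pr₁ t) (ℓ : Module.End ℤ (Lpar N)) b -
          powSum (pr₁ t') (ℓ' : Module.End ℤ (Lpar N)) b' := by
      show pr₁ (powSum t (ℓ : 𝔸) b - powSum t' (ℓ' : 𝔸) b') = _
      rw [map_sub, map_powSum, map_powSum, map_natCast, map_natCast]
    rw [e1, LinearMap.sub_apply, map_sub,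
      h7s31_powSum_intertwine (lam (p ^ (n + c))) (pr₁ t) (heckeOperatorBar N ⟨ℓ, hℓ⟩) ℓ
        (fun φ' => hlam4 _ hpm ℓ hℓ hℓN (pr₁ t) ht1 φ') b φ,
      h7s31_powSum_intertwine (lam (p ^ (n + c))) (pr₁ t') (heckeOperatorBar N ⟨ℓ', hℓ'⟩) ℓ'
        (fun φ' => hlam4 _ hpm ℓ' hℓ' hℓ'N (pr₁ t') ht'1 φ') b' φ,
      h7s31_J_side N hTJ hESF hComm _ x hx0 ℓ hℓ hℓN hℓm A hA σ hσ b,
      h7s31_J_side N hTJ hESF hComm _ x hx0 ℓ' hℓ' hℓ'N hℓ'm A' hA' σ' hσ' b']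
    obtain ⟨k, hk⟩ := hcyc
    refine h7s31_cancel_abs x (p ^ (n + c)) hx0 g τ (σ ^ b) (σ' ^ b') hτx hτy
      (hst φ).1 (hst φ).2 (hst' φ).1 (hst' φ).2 (ℓ ^ b) (ℓ' ^ b') k ?_
    push_cast
    exact hk
  obtain ⟨h', hh'⟩ := hc (n + c) _ hJ
  rw [Nat.add_sub_cancel] at hh'
  -- conclusion
  have hpT : (p : T) ∈ IsLocalRing.maximalIdeal T := by
    have h1 : (p : T) = algebraMap 𝒪 T (p : 𝒪) := by rw [map_natCast]
    rw [h1, IsLocalRing.mem_maximalIdeal, mem_nonunits_iff]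
    intro hu
    exact ((IsLocalRing.mem_maximalIdeal _).mp hp𝒪) (isUnit_of_map_unit (algebraMap 𝒪 T) _ hu)
  have hmid : powSum (H.π (CuspForm.heckeAlgebra.T hℓ hℓN hℓS')) (ℓ : T) b -
      powSum (H.π (CuspForm.heckeAlgebra.T hℓ' hℓ'N hℓ'S')) (ℓ' : T) b' ∈
      IsLocalRing.maximalIdeal T ^ n := by
    have e3 : powSum (H.π (CuspForm.heckeAlgebra.T hℓ hℓN hℓS')) (ℓ : T) b -
        powSum (H.π (CuspForm.heckeAlgebra.T hℓ' hℓ'N hℓ'S')) (ℓ' : T) b' =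
        H.π (pr₂ (powSum t (ℓ : 𝔸) b - powSum t' (ℓ' : 𝔸) b')) := by
      rw [map_sub, map_sub, map_powSum, map_powSum, map_powSum, map_powSum, ht2, ht'2,
        map_natCast, map_natCast, map_natCast, map_natCast]
    rw [e3, hh', map_nsmul, map_nsmul, nsmul_eq_mul]
    push_cast
    exact Ideal.mul_mem_right _ _ (Ideal.pow_mem_pow hpT n)
  rw [hT3] at hT1
  rw [hT4] at hT2
  have hfinal : LinearMap.trace T H.ρ.V (H.ρ.ρ (g * τ)) - LinearMap.trace T H.ρ.V (H.ρ.ρ g) =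
      (powSum (H.π (CuspForm.heckeAlgebra.T hℓ hℓN hℓS')) (ℓ : T) b -
        LinearMap.trace T H.ρ.V (H.ρ.ρ g)) -
      (powSum (H.π (CuspForm.heckeAlgebra.T hℓ' hℓ'N hℓ'S')) (ℓ' : T) b' -
        LinearMap.trace T H.ρ.V (H.ρ.ρ (g * τ))) -
      (powSum (H.π (CuspForm.heckeAlgebra.T hℓ hℓN hℓS')) (ℓ : T) b -
        powSum (H.π (CuspForm.heckeAlgebra.T hℓ' hℓ'N hℓ'S')) (ℓ' : T) b') := by ring
  rw [hfinal]
  exact Ideal.sub_mem _ (Ideal.sub_mem _ hT1 hT2) hmid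

end H7S31

end
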