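/-
Item 81 (S31), slices TR-T and TR-J (lead): traces of powers.
`LeadS31.traceT : H7S31.TraceTStatement`, `LeadS31.traceJ : H7S31.TraceJStatement`.
-/
import Fermat.Agent.S31.Defs_helper7

set_option autoImplicit false

open Polynomial

namespace LeadS31

open H7S31

/-- **TR-T**. -/
theorem traceT : TraceTStatement := by
  intro T _ V _ _ _ _ hrk M t d hchar b
  rcases subsingleton_or_nontrivial T with hT | hT
  · exact Subsingleton.elim _ _
  · -- Cayley-Hamilton
    have hCH : M ^ 2 = t • M - d • (1 : Module.End T V) := by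
      have h := LinearMap.aeval_self_charpoly M
      rw [hchar] at h
      simp only [map_add, map_sub, map_pow, map_mul, aeval_X, aeval_C] at h
      have h2 : M ^ 2 = (algebraMap T (Module.End T V)) t * M
          - (algebraMap T (Module.End T V)) d := by
        rw [← sub_eq_zero]
        rw [← h]
        abel
      rw [h2, Algebra.algebraMap_eq_smul_one, Algebra.algebraMap_eq_smul_one, smul_mul_assoc,
        one_mul]
    have htr1 : LinearMap.trace T V M = t := by
      let B : Module.Basis (Fin 2) T V := Module.finBasisOfFinrankEq T V hrk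
      rw [LinearMap.trace_eq_matrix_trace T B M, Matrix.trace_eq_neg_charpoly_coeff,
        LinearMap.charpoly_toMatrix, hchar]
      simp [coeff_C]
    have hrec : ∀ b : ℕ, LinearMap.trace T V (M ^ (b + 2)) =
        t * LinearMap.trace T V (M ^ (b + 1)) - d * LinearMap.trace T V (M ^ b) := by
      intro b
      have h1 : M ^ (b + 2) = t • M ^ (b + 1) - d • M ^ b := by
        rw [pow_add, hCH, mul_sub, mul_smul_comm, mul_smul_comm, mul_one, ← pow_succ]
      rw [h1, map_sub, map_smul, map_smul, smul_eq_mul, smul_eq_mul]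
    induction b using Nat.strong_induction_on with
    | _ b ih =>
      match b, ih with
      | 0, _ =>
        rw [pow_zero, powSum_zero, LinearMap.trace_one, hrk]
        norm_num
      | 1, _ => rw [pow_one, powSum_one, htr1]
      | (b + 2), ih =>
        rw [hrec, powSum_succ_succ, ih (b + 1) (by omega), ih b (by omega)]

/-- **TR-J**. -/
theorem traceJ : TraceJStatement := by
  intro G _ J _ _ σ t n ℓ _ hrel
  -- the `n`-torsion is stable
  have hstab : ∀ (g : G) (x : J), n • x = 0 → n • (g • x) = 0 := by
    intro g x hx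
    rw [← smul_comm g n x, hx, smul_zero]
  -- the relation in the form `t y = σ y + ℓ σ⁻¹ y`
  have ht : ∀ y : J, n • y = 0 → t y = σ • y + ℓ • σ⁻¹ • y := by
    intro y hy
    have h := hrel (σ⁻¹ • y) (hstab σ⁻¹ y hy)
    rw [smul_inv_smul] at h
    have h2 : t y = σ • y + ℓ • σ⁻¹ • y := by
      rw [← sub_eq_zero]
      rw [← neg_eq_zero]
      rw [← h]
      abel
    exact h2
  intro b
  induction b using Nat.strong_induction_on with
  | _ b ih =>
    intro x hx
    match b, ih with
    | 0, _ =>
      rw [powSum_zero, pow_zero, pow_zero, inv_one, one_smul, one_smul]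
      show ((2 : Module.End ℤ J)) x = x + x
      rw [← one_add_one_eq_two, LinearMap.add_apply]
      rfl
    | 1, _ =>
      rw [powSum_one, pow_one, pow_one]
      exact ht x hx
    | (b + 2), ih =>
      rw [powSum_succ_succ, LinearMap.sub_apply, Module.End.mul_apply, Module.End.mul_apply,
        ih (b + 1) (by omega) x hx, ih b (by omega) x hx, map_add, map_nsmul,
        ht _ (hstab _ x hx), ht _ (hstab _ x hx)]
      have e1 : σ • σ ^ (b + 1) • x = σ ^ (b + 2) • x := by
        rw [← mul_smul, ← pow_succ']
      have e2 : σ⁻¹ • σ ^ (b + 1) • x = σ ^ b • x := by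
        rw [pow_succ', mul_smul, inv_smul_smul]
      have e3 : σ • (σ ^ (b + 1))⁻¹ • x = (σ ^ b)⁻¹ • x := by
        rw [pow_succ, mul_inv_rev, mul_smul, smul_inv_smul]
      have e4 : σ⁻¹ • (σ ^ (b + 1))⁻¹ • x = (σ ^ (b + 2))⁻¹ • x := by
        rw [← mul_smul, ← mul_inv_rev, ← pow_succ]
      rw [e1, e2, e3, e4]
      have e5 : (((ℓ : ℤ) • (1 : Module.End ℤ J)) : Module.End ℤ J)
          (σ ^ b • x + ℓ ^ b • (σ ^ b)⁻¹ • x) = ℓ • (σ ^ b • x) + ℓ ^ (b + 1) • (σ ^ b)⁻¹ • x := by
        rw [LinearMap.smul_apply, Module.End.one_apply, natCast_zsmul, smul_add, ← mul_smul,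
          ← pow_succ']
      rw [e5, smul_add, ← mul_smul, ← pow_succ]
      abel

end LeadS31
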