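import Mathlib
import Fermat.Agent.S31.MainK_helper7
import Fermat.Agent.S31.BurnStmt_helper9
import Fermat.Agent.S31.FEasy_helper29
import Fermat.Agent.S31.Trace_lead
import Fermat.Agent.W3G.CHEB_helper29
import Fermat.Agent.W3G.CycAdic_helper27
import Fermat.Agent.W3G.FinLev_helper13
import Fermat.Agent.W3G.ESStatement_helper10
import Fermat.Agent.S18.KummerTameFinal_helper7
import Fermat.Agent.W3G.KUMKum_helper8
import Fermat.Agent.W3G.KUMSurj_helper4
import Fermat.Agent.W3G.KUMDesc_helper1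
import Fermat.Agent.W3G.KUMUnit_helper16
import Fermat.Agent.W3G.HpeHecke_helper13
import Fermat.Agent.W3G.AN3Alg2_helper2
import Fermat.Agent.W3G.RIGOrd_helper27

/-!
# Item 81 (S31): S31, unconditional (helper7)

All inputs are proved: BN (helper9), F'' (helper29), SAT + TR (lead), CHEB (helper29),
CYC (helper27), COMM + FINLEV (helper13), ES (helper10, on top of item 75's KummerTame),
KUM = K-KUM assembly (helper8) + K-UNIT (helper16) + K-DESC (helper1) + AN3-A (helper2) +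
K-SURJ (helper4) + HpeHecke (helper13) + RIGORD (helper27 et al.).
-/

set_option autoImplicit false

noncomputable section

namespace H7S31

open H11W3G ModularCurve

/-- `KumStatement` (item 80), assembled as in `LeadASM.kum_of_rigOrd`. -/
theorem h7s31_kum (M : ℕ) [NeZero M] : KumStatement M :=
  H8KUM.h8k_kumStatement (H16KU.h16_isRealisation M)
    (fun _ hn => H1KD.invRoot M hn (H2AN3.algStatement M))
    (fun n hn => H4KUM.kumSurj_of_rigOrd M n hn (H27RIG.rigOrd M n))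
    (H13E0.hpeHeckeStatement M)

variable {p : ℕ} {N : ℕ} [NeZero N] {S : Finset ℕ}
  {𝒪 : Type} [CommRing 𝒪] [IsDomain 𝒪] [IsDiscreteValuationRing 𝒪]
  [IsAdicComplete (IsLocalRing.maximalIdeal 𝒪) 𝒪]
  {θ : CuspForm.heckeAlgebra N 2 (↑S : Set ℕ) →+* IsLocalRing.ResidueField 𝒪}
  {T : Type} [CommRing T] [IsLocalRing T] [IsNoetherianRing T]
  [IsAdicComplete (IsLocalRing.maximalIdeal T) T] [Algebra 𝒪 T] [IsLocalHom (algebraMap 𝒪 T)]
  [Module.Finite 𝒪 T] [Module.Free 𝒪 T]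

/-- **S31** from `LamWStatement N`. -/
theorem h7s31_of_lamW (hLam : LamWStatement N)
    (hp : p.Prime) (hp𝒪 : (p : 𝒪) ∈ IsLocalRing.maximalIdeal 𝒪) (hpS : p ∈ S)
    (hNS : ∀ q : ℕ, q.Prime → q ∣ N → q ∈ S)
    (H : CuspForm.HeckeGaloisRepDatum N (↑S : Set ℕ) 𝒪 θ T)
    (q : ℕ) (hq : q.Prime) (hqS : q ∉ S) :
    H.ρ.IsUnramifiedAt q :=
  h7s31_mainW H9S31.burn LeadS31.traceT LeadS31.traceJ H29CHEB.h29cheb_chebStatement
    (H27CYC.h27cyc_adic p hp) (H29F.h29f_faithEasy (N := N) (S := S)) hLam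
    (H10ES.h10es_inertiaStatement_of_tame H7S18.h7s18_kummerTame N)
    (H10ES.h10es_frobeniusStatement_of_tame H7S18.h7s18_kummerTame N)
    (H13W3G.commStatement (N := N)) (H13W3G.finLevStatement (N := N))
    hp hp𝒪 hpS hNS H q hq hqS

/-- **S31**, unconditional. -/
theorem h7s31_final
    (hp : p.Prime) (hp𝒪 : (p : 𝒪) ∈ IsLocalRing.maximalIdeal 𝒪) (hpS : p ∈ S)
    (hNS : ∀ q : ℕ, q.Prime → q ∣ N → q ∈ S)
    (H : CuspForm.HeckeGaloisRepDatum N (↑S : Set ℕ) 𝒪 θ T)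
    (q : ℕ) (hq : q.Prime) (hqS : q ∉ S) :
    H.ρ.IsUnramifiedAt q :=
  h7s31_of_lamW (h7s31_lamW_of_kum N (h7s31_kum N)) hp hp𝒪 hpS hNS H q hq hqS

end H7S31

end
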