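import Mathlib
import Fermat.Agent.S31.MainAux_helper7
import Fermat.Agent.S31.MainCyc_helper7
import Fermat.Agent.S31.MainAbs_helper7
import Fermat.Agent.S31.Faith_lead
import Fermat.Agent.W3G.EigenAdic_helper23

/-!
# Item 81 (S31): the assembly (helper7)

`H7S31.h7s31_main`: S31 from the slices
`BurnStatement` (BN), `TraceTStatement`, `TraceJStatement` (TR), `FaithEasyStatement N S` (F''),
`LeadS31.faith` (SAT), and item 80's `ChebStatement`, `CycAdicStatement p`, `LamStatement N`,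
`ESInertiaStatement N`, `ESFrobeniusStatement N`, `CommStatement N`, `FinLevStatement N`.
-/

set_option autoImplicit false
set_option linter.style.haveILetI false
set_option linter.unusedVariables false
set_option maxHeartbeats 1000000

noncomputable section

open Polynomial

namespace H7S31

open H11W3G ModularCurve

variable {p : ℕ} {N : ℕ} [NeZero N] {S : Finset ℕ}
  {𝒪 : Type} [CommRing 𝒪] [IsDomain 𝒪] [IsDiscreteValuationRing 𝒪]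
  [IsAdicComplete (IsLocalRing.maximalIdeal 𝒪) 𝒪]
  {θ : CuspForm.heckeAlgebra N 2 (↑S : Set ℕ) →+* IsLocalRing.ResidueField 𝒪}
  {T : Type} [CommRing T] [IsLocalRing T] [IsNoetherianRing T]
  [IsAdicComplete (IsLocalRing.maximalIdeal T) T] [Algebra 𝒪 T] [IsLocalHom (algebraMap 𝒪 T)]
  [Module.Finite 𝒪 T] [Module.Free 𝒪 T]

theorem h7s31_main (hBurn : BurnStatement) (hTT : TraceTStatement) (hTJ : TraceJStatement)
    (hCheb : ChebStatement) (hCyc : CycAdicStatement p) (hF : FaithEasyStatement N S)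
    (hLam : LamStatement N) (hESI : ESInertiaStatement N) (hESF : ESFrobeniusStatement N)
    (hComm : CommStatement N) (hFin : FinLevStatement N)
    (hp : p.Prime) (hp𝒪 : (p : 𝒪) ∈ IsLocalRing.maximalIdeal 𝒪) (hpS : p ∈ S)
    (hNS : ∀ q : ℕ, q.Prime → q ∣ N → q ∈ S)
    (H : CuspForm.HeckeGaloisRepDatum N (↑S : Set ℕ) 𝒪 θ T)
    (q : ℕ) (hq : q.Prime) (hqS : q ∉ S) :
    H.ρ.IsUnramifiedAt q := by
  classical
  haveI : Fact p.Prime := ⟨hp⟩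
  intro P hP τ hτ
  refine hBurn T H.ρ H.residual_absIrr τ fun g => ?_
  rw [← sub_eq_zero]
  -- separatedness
  have hsep : ∀ x : T, (∀ n : ℕ, x ∈ IsLocalRing.maximalIdeal T ^ n) → x = 0 := by
    intro x hx
    have h0 := Ideal.iInf_pow_eq_bot_of_isLocalRing (IsLocalRing.maximalIdeal T)
      (Ideal.IsMaximal.ne_top inferInstance)
    have : x ∈ ⨅ i, IsLocalRing.maximalIdeal T ^ i := by
      rw [Ideal.mem_iInf]; exact hx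
    rw [h0] at this
    exact this
  apply hsep
  intro n
  -- the data
  obtain ⟨𝔸, h𝔸, pr₁, pr₂, hinj, hT⟩ := hF
  obtain ⟨c, hc⟩ := LeadS31.faith (pr₁ : 𝔸 →+ Module.End ℤ (Lpar N)) hinj p hp
  obtain ⟨lam, hlam1, hlam2, hlam3, hlam4⟩ := hLam
  obtain ⟨L₁, hL₁fin, hL₁⟩ := H.ρ.isAdicContinuous n
  obtain ⟨L₃, hL₃fin, hL₃⟩ := h7s31_cyc p hCyc (n + c)
  obtain ⟨s, hs⟩ := (Module.Finite.fg_top : (⊤ : Submodule ℤ (Lpar N)).FG)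
  have hpm : 0 < p ^ (n + c) := pow_pos hp.pos _
  obtain ⟨L₂, hL₂fin, hL₂⟩ := h7s31_finLev_finset N hFin
    (s.image (fun φ => lam (p ^ (n + c)) φ) ∪ s.image (fun φ => g⁻¹ • lam (p ^ (n + c)) φ))
  haveI := hL₁fin
  haveI := hL₂fin
  haveI := hL₃fin
  have hle₁ : L₁ ≤ L₁ ⊔ L₂ ⊔ L₃ := le_sup_left.trans le_sup_left
  have hle₂ : L₂ ≤ L₁ ⊔ L₂ ⊔ L₃ := le_sup_right.trans le_sup_left
  have hle₃ : L₃ ≤ L₁ ⊔ L₂ ⊔ L₃ := le_sup_right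
  obtain ⟨ℓ, A, σ, b, hℓ, hℓS, hA, hσ, hb, hσg⟩ := hCheb (L₁ ⊔ L₂ ⊔ L₃) inferInstance g S
  obtain ⟨ℓ', A', σ', b', hℓ', hℓ'S, hA', hσ', hb', hσ'g⟩ :=
    hCheb (L₁ ⊔ L₂ ⊔ L₃) inferInstance (g * τ) S
  have hℓN : ¬ ℓ ∣ N := fun h => hℓS (hNS ℓ hℓ h)
  have hℓ'N : ¬ ℓ' ∣ N := fun h => hℓ'S (hNS ℓ' hℓ' h)
  have hqN : ¬ q ∣ N := fun h => hqS (hNS q hq h)
  have hℓp : ℓ ≠ p := fun h => hℓS (h ▸ hpS)
  have hℓ'p : ℓ' ≠ p := fun h => hℓ'S (h ▸ hpS)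
  have hqp : q ≠ p := fun h => hqS (h ▸ hpS)
  have hℓm : ¬ ℓ ∣ p ^ (n + c) := fun h =>
    hℓp ((Nat.prime_dvd_prime_iff_eq hℓ hp).mp (hℓ.dvd_of_dvd_pow h))
  have hℓ'm : ¬ ℓ' ∣ p ^ (n + c) := fun h =>
    hℓ'p ((Nat.prime_dvd_prime_iff_eq hℓ' hp).mp (hℓ'.dvd_of_dvd_pow h))
  have hqm : ¬ q ∣ p ^ (n + c) := fun h =>
    hqp ((Nat.prime_dvd_prime_iff_eq hq hp).mp (hq.dvd_of_dvd_pow h))
  have hℓS' : ℓ ∉ (↑S : Set ℕ) := by simpa using hℓS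
  have hℓ'S' : ℓ' ∉ (↑S : Set ℕ) := by simpa using hℓ'S
  -- T side
  have hT1 := h7s31_trace_congr H.ρ n L₁ hL₁ g (σ ^ b) (fun x hx => hσg x (hle₁ hx))
  have hT2 := h7s31_trace_congr H.ρ n L₁ hL₁ (g * τ) (σ' ^ b') (fun x hx => hσ'g x (hle₁ hx))
  have hT3 : LinearMap.trace T H.ρ.V (H.ρ.ρ (σ ^ b)) =
      powSum (H.π (CuspForm.heckeAlgebra.T hℓ hℓN hℓS')) (ℓ : T) b := by
    rw [map_pow]
    exact hTT T H.ρ.V H.ρ.finrank_eq (H.ρ.ρ σ) _ _ (H.charpoly_frob ℓ hℓ hℓN hℓS' A hA σ hσ) b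
  have hT4 : LinearMap.trace T H.ρ.V (H.ρ.ρ (σ' ^ b')) =
      powSum (H.π (CuspForm.heckeAlgebra.T hℓ' hℓ'N hℓ'S')) (ℓ' : T) b' := by
    rw [map_pow]
    exact hTT T H.ρ.V H.ρ.finrank_eq (H.ρ.ρ σ') _ _
      (H.charpoly_frob ℓ' hℓ' hℓ'N hℓ'S' A' hA' σ' hσ') b'
  -- the elements of 𝔸
  haveI hFℓ : Fact ℓ.Prime := ⟨hℓ⟩
  haveI hFℓ' : Fact ℓ'.Prime := ⟨hℓ'⟩
  obtain ⟨t, ht1, ht2⟩ := hT ℓ hℓ hℓN hℓS'
  obtain ⟨t', ht'1, ht'2⟩ := hT ℓ' hℓ' hℓ'N hℓ'S'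
  -- cyclotomic congruence
  have hcyc := hL₃ g τ q hq hqp P hP hτ ℓ ℓ' hℓ hℓp hℓ' hℓ'p A A' hA hA' σ σ' hσ hσ' b b'
    (fun x hx => hσg x (hle₃ hx)) (fun x hx => hσ'g x (hle₃ hx))
  -- stabilisers
  have hδ : ∀ x ∈ L₂, (g⁻¹ * σ ^ b) x = x := by
    intro x hx
    rw [AlgEquiv.mul_apply, hσg x (hle₂ hx), AlgEquiv.aut_inv, AlgEquiv.symm_apply_apply]
  have hδ' : ∀ x ∈ L₂, ((g * τ)⁻¹ * σ' ^ b') x = x := by
    intro x hx
    rw [AlgEquiv.mul_apply, hσ'g x (hle₂ hx), AlgEquiv.aut_inv, AlgEquiv.symm_apply_apply]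
  have hst := h7s31_stab_abs (lam (p ^ (n + c))) g (g⁻¹ * σ ^ b) (s : Set (Lpar N)) hs
    (fun φ hφ => hL₂ _ hδ _ (Finset.mem_union_left _ (Finset.mem_image_of_mem _ hφ)))
    (fun φ hφ => hL₂ _ hδ _ (Finset.mem_union_right _ (Finset.mem_image_of_mem _ hφ)))
  have hst' := h7s31_stab_abs (lam (p ^ (n + c))) g ((g * τ)⁻¹ * σ' ^ b') (s : Set (Lpar N)) hs
    (fun φ hφ => hL₂ _ hδ' _ (Finset.mem_union_left _ (Finset.mem_image_of_mem _ hφ)))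
    (fun φ hφ => hL₂ _ hδ' _ (Finset.mem_union_right _ (Finset.mem_image_of_mem _ hφ)))
  -- J side
  have hJ : ∀ φ : Lpar N, ∃ ψ : Lpar N,
      (pr₁ : 𝔸 →+ Module.End ℤ (Lpar N))
        (powSum t (ℓ : 𝔸) b - powSum t' (ℓ' : 𝔸) b') φ = (p ^ (n + c)) • ψ := by
    intro φ
    apply hlam2 (p ^ (n + c)) hpm
    set x : JZero N := lam (p ^ (n + c)) φ with hx
    have hx0 : (p ^ (n + c)) • x = 0 := hlam1 _ φ
    have hτx : τ • x = x := hESI _ q hq hqN hqm P hP τ hτ x hx0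
    have hτy : ∀ y : JZero N, (p ^ (n + c)) • y = 0 → τ⁻¹ • y = y := fun y hy =>
      hESI _ q hq hqN hqm P hP τ⁻¹ (Subgroup.inv_mem _ hτ) y hy
    have e1 : (pr₁ : 𝔸 →+ Module.End ℤ (Lpar N))
        (powSum t (ℓ : 𝔸) b - powSum t' (ℓ' : 𝔸) b') =
        powSum (pr₁ t) (ℓ : Module.End ℤ (Lpar N)) b -
          powSum (pr₁ t') (ℓ' : Module.End ℤ (Lpar N)) b' := by
      show pr₁ (powSum t (ℓ : 𝔸) b - powSum t' (ℓ' : 𝔸) b') = _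
      rw [map_sub, map_powSum, map_powSum, map_natCast, map_natCast]
    rw [e1, LinearMap.sub_apply, map_sub,
      h7s31_powSum_intertwine (lam (p ^ (n + c))) (pr₁ t) (heckeOperatorBar N ⟨ℓ, hℓ⟩) ℓ
        (fun φ' => hlam4 _ hpm ℓ hℓ hℓN (pr₁ t) ht1 φ') b φ,
      h7s31_powSum_intertwine (lam (p ^ (n + c))) (pr₁ t') (heckeOperatorBar N ⟨ℓ', hℓ'⟩) ℓ'
        (fun φ' => hlam4 _ hpm ℓ' hℓ' hℓ'N (pr₁ t') ht'1 φ') b' φ,
      h7s31_J_side N hTJ hESF hComm _ x hx0 ℓ hℓ hℓN hℓm A hA σ hσ b,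
      h7s31_J_side N hTJ hESF hComm _ x hx0 ℓ' hℓ' hℓ'N hℓ'm A' hA' σ' hσ' b']
    obtain ⟨k, hk⟩ := hcyc
    refine h7s31_cancel_abs x (p ^ (n + c)) hx0 g τ (σ ^ b) (σ' ^ b') hτx hτy
      (hst φ).1 (hst φ).2 (hst' φ).1 (hst' φ).2 (ℓ ^ b) (ℓ' ^ b') k ?_
    push_cast
    exact hk
  obtain ⟨h', hh'⟩ := hc (n + c) _ hJ
  rw [Nat.add_sub_cancel] at hh'
  -- conclusion
  have hpT : (p : T) ∈ IsLocalRing.maximalIdeal T := by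
    have h1 : (p : T) = algebraMap 𝒪 T (p : 𝒪) := by rw [map_natCast]
    rw [h1, IsLocalRing.mem_maximalIdeal, mem_nonunits_iff]
    intro hu
    exact ((IsLocalRing.mem_maximalIdeal _).mp hp𝒪) (isUnit_of_map_unit (algebraMap 𝒪 T) _ hu)
  have hmid : powSum (H.π (CuspForm.heckeAlgebra.T hℓ hℓN hℓS')) (ℓ : T) b -
      powSum (H.π (CuspForm.heckeAlgebra.T hℓ' hℓ'N hℓ'S')) (ℓ' : T) b' ∈
      IsLocalRing.maximalIdeal T ^ n := by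
    have e3 : powSum (H.π (CuspForm.heckeAlgebra.T hℓ hℓN hℓS')) (ℓ : T) b -
        powSum (H.π (CuspForm.heckeAlgebra.T hℓ' hℓ'N hℓ'S')) (ℓ' : T) b' =
        H.π (pr₂ (powSum t (ℓ : 𝔸) b - powSum t' (ℓ' : 𝔸) b')) := by
      rw [map_sub, map_sub, map_powSum, map_powSum, map_powSum, map_powSum, ht2, ht'2,
        map_natCast, map_natCast, map_natCast, map_natCast]
    rw [e3, hh', map_nsmul, map_nsmul, nsmul_eq_mul]
    push_cast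
    exact Ideal.mul_mem_right _ _ (Ideal.pow_mem_pow hpT n)
  rw [hT3] at hT1
  rw [hT4] at hT2
  have hfinal : LinearMap.trace T H.ρ.V (H.ρ.ρ (g * τ)) - LinearMap.trace T H.ρ.V (H.ρ.ρ g) =
      (powSum (H.π (CuspForm.heckeAlgebra.T hℓ hℓN hℓS')) (ℓ : T) b -
        LinearMap.trace T H.ρ.V (H.ρ.ρ g)) -
      (powSum (H.π (CuspForm.heckeAlgebra.T hℓ' hℓ'N hℓ'S')) (ℓ' : T) b' -
        LinearMap.trace T H.ρ.V (H.ρ.ρ (g * τ))) -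
      (powSum (H.π (CuspForm.heckeAlgebra.T hℓ hℓN hℓS')) (ℓ : T) b -
        powSum (H.π (CuspForm.heckeAlgebra.T hℓ' hℓ'N hℓ'S')) (ℓ' : T) b') := by ring
  rw [hfinal]
  exact Ideal.sub_mem _ (Ideal.sub_mem _ hT1 hT2) hmid

end H7S31

end
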