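import Mathlib
import Fermat.Agent.S31.Main_helper7
import Fermat.Agent.S31.BurnStmt_helper9
import Fermat.Agent.S31.FEasy_helper29
import Fermat.Agent.S31.Trace_lead
import Fermat.Agent.W3G.CHEB_helper29
import Fermat.Agent.W3G.CycAdic_helper27
import Fermat.Agent.W3G.FinLev_helper13
import Fermat.Agent.W3G.ESStatement_helper10
import Fermat.Agent.S18.KummerTameFinal_helper7

/-!
# Item 81 (S31): S31 from `LamStatement N` alone (helper7)

All other inputs are proved: BN (helper9), F'' (helper29), SAT + TR (lead), CHEB (helper29),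
CYC (helper27), COMM + FINLEV (helper13), ES (helper10, on top of item 75's KummerTame).
-/

set_option autoImplicit false

noncomputable section

namespace H7S31

open H11W3G ModularCurve

variable {p : ℕ} {N : ℕ} [NeZero N] {S : Finset ℕ}
  {𝒪 : Type} [CommRing 𝒪] [IsDomain 𝒪] [IsDiscreteValuationRing 𝒪]
  [IsAdicComplete (IsLocalRing.maximalIdeal 𝒪) 𝒪]
  {θ : CuspForm.heckeAlgebra N 2 (↑S : Set ℕ) →+* IsLocalRing.ResidueField 𝒪}
  {T : Type} [CommRing T] [IsLocalRing T] [IsNoetherianRing T]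
  [IsAdicComplete (IsLocalRing.maximalIdeal T) T] [Algebra 𝒪 T] [IsLocalHom (algebraMap 𝒪 T)]
  [Module.Finite 𝒪 T] [Module.Free 𝒪 T]

/-- **S31** from the comparison maps `lam` of item 80 (`LamStatement N`). -/
theorem h7s31_of_lam (hLam : LamStatement N)
    (hp : p.Prime) (hp𝒪 : (p : 𝒪) ∈ IsLocalRing.maximalIdeal 𝒪) (hpS : p ∈ S)
    (hNS : ∀ q : ℕ, q.Prime → q ∣ N → q ∈ S)
    (H : CuspForm.HeckeGaloisRepDatum N (↑S : Set ℕ) 𝒪 θ T)
    (q : ℕ) (hq : q.Prime) (hqS : q ∉ S) :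
    H.ρ.IsUnramifiedAt q :=
  h7s31_main H9S31.burn LeadS31.traceT LeadS31.traceJ H29CHEB.h29cheb_chebStatement
    (H27CYC.h27cyc_adic p hp) (H29F.h29f_faithEasy (N := N) (S := S)) hLam
    (H10ES.h10es_inertiaStatement_of_tame H7S18.h7s18_kummerTame N)
    (H10ES.h10es_frobeniusStatement_of_tame H7S18.h7s18_kummerTame N)
    (H13W3G.commStatement (N := N)) (H13W3G.finLevStatement (N := N))
    hp hp𝒪 hpS hNS H q hq hqS

end H7S31

end
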